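/-
S25, block CECH (squad S25/S10), leaf K6 (helper370): `exists_finite_model`, exactly as in
`CechSkel.lean` (origin/helper10).  Assembly of
* K0a, K0e, K1 (`Fermat.Agent.S25.H10`), K1a (`Fermat.Agent.S25.H850`),
  K2 (`Fermat.Agent.S25.H790`), and
* the base-change core `finite_model_baseChange` (K3 + K5, `Fermat.Agent.S25.H370`).
-/
import Fermat.Agent.S25.H10.K0e
import Fermat.Agent.S25.H10.K1
import Fermat.Agent.S25.H790.CechK2
import Fermat.Agent.S25.H850.K1a
import Fermat.Agent.S25.H370.CechK6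

set_option autoImplicit false

namespace Fermat.Agent.S25.H370

open Polynomial TensorProduct Fermat.Agent.S25.H10

universe u v

variable {A : Type u} [CommRing A] {N0 N1 N01 : Type v}
  [AddCommGroup N0] [AddCommGroup N1] [AddCommGroup N01]
  [Module A N0] [Module A N1] [Module A N01]

/-- **K1**, exactly as in `CechSkel.lean`. -/
theorem H0_finite_projective_of_surjective (D : CechOps A N0 N1 N01)
    (h0 : IsFGProj D.X0) (h1 : IsFGProj D.Y1)
    (hr0 : Function.Injective D.r0) (hr1 : Function.Injective D.r1) (m : ℕ)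
    (hsurj : Function.Surjective (D.d m)) :
    (∃ s : N01 →ₗ[A] N0 × N1, D.d m ∘ₗ s = LinearMap.id) ∧
      Module.Finite A (D.H0 m) ∧ Module.Projective A (D.H0 m) :=
  Fermat.Agent.S25.H10.H0_finite_projective_of_surjective_of_bound D h0 h1 hr0 m
    (Fermat.Agent.S25.H850.exists_fg_ge_H0 D h0 h1 hr0 hr1 m) hsurj

/-- **K6 (finite model).** There are `m` and the map `δ m : H⁰(L(m∞)) → N1/y^m N1` between
finitely generated projective `A`-modules which computes `H⁰` and `H¹` of the Čech complex
universally: after every base change `A → A'` its kernel and cokernel are those of `A' ⊗ d 0`. -/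
theorem exists_finite_model (D : CechOps A N0 N1 N01)
    (h0 : IsFGProj D.X0) (h1 : IsFGProj D.Y1)
    (hr0 : Function.Injective D.r0) (hr1 : Function.Injective D.r1) :
    ∃ m : ℕ, Function.Surjective (D.d m) ∧
      Module.Finite A (D.H0 m) ∧ Module.Projective A (D.H0 m) ∧
      Module.Finite A (N1 ⧸ LinearMap.range (D.Y1 ^ m)) ∧
      Module.Projective A (N1 ⧸ LinearMap.range (D.Y1 ^ m)) ∧
      ∀ (A' : Type (max u v)) [CommRing A'] [Algebra A A'],
        Nonempty (LinearMap.ker ((D.δ m).baseChange A') ≃ₗ[A']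
          LinearMap.ker ((D.d 0).baseChange A')) ∧
        Nonempty (((A' ⊗[A] (N1 ⧸ LinearMap.range (D.Y1 ^ m))) ⧸
            LinearMap.range ((D.δ m).baseChange A')) ≃ₗ[A']
          ((A' ⊗[A] N01) ⧸ LinearMap.range ((D.d 0).baseChange A'))) :=
  exists_finite_model_of D h0 h1 hr0
    (Fermat.Agent.S25.H790.exists_forall_d_surjective D (isFG_of_isFGProj h0))
    (fun m hs => (H0_finite_projective_of_surjective D h0 h1 hr0 hr1 m hs).2)
    (fun m => quotient_pow_finite_projective h1 m)

/-- K6 for **every** sufficiently large twist, and for base rings `A'` in every universe. -/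
theorem exists_forall_finite_model (D : CechOps A N0 N1 N01)
    (h0 : IsFGProj D.X0) (h1 : IsFGProj D.Y1)
    (hr0 : Function.Injective D.r0) (hr1 : Function.Injective D.r1) :
    ∃ m0 : ℕ, ∀ m, m0 ≤ m → Function.Surjective (D.d m) ∧
      Module.Finite A (D.H0 m) ∧ Module.Projective A (D.H0 m) ∧
      Module.Finite A (N1 ⧸ LinearMap.range (D.Y1 ^ m)) ∧
      Module.Projective A (N1 ⧸ LinearMap.range (D.Y1 ^ m)) ∧
      ∀ (A' : Type*) [CommRing A'] [Algebra A A'],
        Nonempty (LinearMap.ker ((D.δ m).baseChange A') ≃ₗ[A']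
          LinearMap.ker ((D.d 0).baseChange A')) ∧
        Nonempty (((A' ⊗[A] (N1 ⧸ LinearMap.range (D.Y1 ^ m))) ⧸
            LinearMap.range ((D.δ m).baseChange A')) ≃ₗ[A']
          ((A' ⊗[A] N01) ⧸ LinearMap.range ((D.d 0).baseChange A'))) := by
  obtain ⟨m0, hm0⟩ := Fermat.Agent.S25.H790.exists_forall_d_surjective D (isFG_of_isFGProj h0)
  refine ⟨m0, fun m hm => ?_⟩
  have hs := hm0 m hm
  have hK1 := (H0_finite_projective_of_surjective D h0 h1 hr0 hr1 m hs).2
  have hK0 := quotient_pow_finite_projective h1 m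
  exact ⟨hs, hK1.1, hK1.2, hK0.1, hK0.2,
    fun A' _ _ => finite_model_baseChange A' D h0 h1 hr0 m hs⟩

end Fermat.Agent.S25.H370
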