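/-
S25, block CECH (squad S25/S10), leaf K5 (helper370): base change for the operator-style Čech core.

Statements exactly as in `CechSkel.lean` (origin/helper10):
* `isFGProj_baseChange`      (K5a)
* `r0_baseChange_injective`  (K5b)
* `baseChange_d`             (K5c)
* `H0_baseChange_bijective`  (K5d)
and, as by-products of the same construction,
* `exists_lift_of_loc`   : the universal property of `N01 = N0[1/x]`, by hand;
* `projective_N01`       (K1b): `N01` is a retract of `A[T;T⁻¹]^n`, hence `A`-projective;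
* `exists_section_d`     : a surjective twisted differential has an `A`-linear section.
-/
import Fermat.Agent.S25.H10.CechDefs

set_option autoImplicit false

namespace Fermat.Agent.S25.H370

open Polynomial TensorProduct Fermat.Agent.S25.H10

universe u v w

variable {A : Type u} [CommRing A]

/-! ### The canonical isomorphism `A' ⊗ A[X]^n ≃ A'[X]^n` -/

section PolyPi

variable (A' : Type w) [CommRing A'] [Algebra A A']

/-- The canonical `A'`-linear isomorphism `A' ⊗[A] A[X]^n ≃ A'[X]^n`. -/
noncomputable def polyPiEquiv (n : ℕ) : A' ⊗[A] (Fin n → A[X]) ≃ₗ[A'] (Fin n → A'[X]) :=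
  (TensorProduct.piRight A A' A' (fun _ : Fin n => A[X])) ≪≫ₗ
    LinearEquiv.piCongrRight (fun _ => (polyEquivTensor' A A').symm.toLinearEquiv)

theorem polyPiEquiv_tmul (n : ℕ) (a : A') (w : Fin n → A[X]) (i : Fin n) :
    polyPiEquiv A' n (a ⊗ₜ w) i = a • (w i).map (algebraMap A A') := rfl

/-- Multiplication by `X` on `R[X]^n`, as an `R`-linear endomorphism. -/
noncomputable def mulXPi (R : Type*) [CommRing R] (n : ℕ) : Module.End R (Fin n → R[X]) :=
  Algebra.lsmul R R (Fin n → R[X]) (X : R[X])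

@[simp] theorem mulXPi_apply (R : Type*) [CommRing R] (n : ℕ) (w : Fin n → R[X]) :
    mulXPi R n w = (X : R[X]) • w := rfl

theorem polyPiEquiv_mulX (n : ℕ) (t : A' ⊗[A] (Fin n → A[X])) :
    polyPiEquiv A' n ((mulXPi A n).baseChange A' t) = (X : A'[X]) • polyPiEquiv A' n t := by
  induction t using TensorProduct.induction_on with
  | zero => simp
  | tmul a w =>
    ext1 i
    rw [LinearMap.baseChange_tmul, polyPiEquiv_tmul, Pi.smul_apply, polyPiEquiv_tmul,
      mulXPi_apply, Pi.smul_apply, smul_eq_mul, smul_eq_mul, Polynomial.map_mul,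
      Polynomial.map_X, mul_smul_comm]
  | add x y hx hy => simp only [map_add, hx, hy, smul_add]

theorem polyPiEquiv_symm_mulX (n : ℕ) (w : Fin n → A'[X]) :
    (polyPiEquiv A' n).symm ((X : A'[X]) • w) =
      (mulXPi A n).baseChange A' ((polyPiEquiv A' n).symm w) := by
  apply (polyPiEquiv A' n).injective
  rw [LinearEquiv.apply_symm_apply, polyPiEquiv_mulX, LinearEquiv.apply_symm_apply]

end PolyPi

/-! ### K5a -/

section K5a

variable (A' : Type w) [CommRing A'] [Algebra A A']

/-- K5a. `IsFGProj` is stable under base change. -/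
theorem isFGProj_baseChange {N : Type v} [AddCommGroup N] [Module A N] {E : Module.End A N}
    (h : IsFGProj E) : IsFGProj (E.baseChange A') := by
  obtain ⟨n, ι, π, hπι, hι, hπ⟩ := h
  have hι' : ι ∘ₗ E = mulXPi A n ∘ₗ ι := LinearMap.ext fun v => hι v
  have hπ' : π ∘ₗ mulXPi A n = E ∘ₗ π := LinearMap.ext fun w => hπ w
  refine ⟨n, (polyPiEquiv A' n).toLinearMap ∘ₗ ι.baseChange A',
    π.baseChange A' ∘ₗ (polyPiEquiv A' n).symm.toLinearMap, ?_, ?_, ?_⟩
  · refine LinearMap.ext fun t => ?_
    simp only [LinearMap.coe_comp, LinearEquiv.coe_coe, Function.comp_apply,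
      LinearEquiv.symm_apply_apply, LinearMap.id_coe, id_eq]
    rw [← LinearMap.comp_apply, ← LinearMap.baseChange_comp, hπι, LinearMap.baseChange_id,
      LinearMap.id_apply]
  · intro t
    simp only [LinearMap.coe_comp, LinearEquiv.coe_coe, Function.comp_apply]
    rw [← LinearMap.comp_apply (ι.baseChange A'), ← LinearMap.baseChange_comp, hι',
      LinearMap.baseChange_comp, LinearMap.comp_apply, polyPiEquiv_mulX]
  · intro w
    simp only [LinearMap.coe_comp, LinearEquiv.coe_coe, Function.comp_apply]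
    rw [polyPiEquiv_symm_mulX, ← LinearMap.comp_apply (π.baseChange A'),
      ← LinearMap.baseChange_comp, hπ', LinearMap.baseChange_comp, LinearMap.comp_apply]

end K5a

/-! ### K5c -/

section K5c

variable {N0 N1 N01 : Type v}
  [AddCommGroup N0] [AddCommGroup N1] [AddCommGroup N01]
  [Module A N0] [Module A N1] [Module A N01]

variable (A' : Type w) [CommRing A'] [Algebra A A']

theorem baseChange_pow {N : Type v} [AddCommGroup N] [Module A N] (E : Module.End A N) (k : ℕ) :
    (E.baseChange A') ^ k = (E ^ k).baseChange A' := by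
  induction k with
  | zero => simp [Module.End.one_eq_id]
  | succ k ih => rw [pow_succ, ih, pow_succ, LinearMap.baseChange_mul]

/-- K5c. The twisted differential of the base change is the base change of the twisted
differential (up to the canonical iso `A' ⊗ (N0 × N1) ≃ (A' ⊗ N0) × (A' ⊗ N1)`). -/
theorem baseChange_d (D : CechOps A N0 N1 N01) (m : ℕ) :
    (D.baseChange A').d m ∘ₗ
        ((TensorProduct.prodRight A A' A' N0 N1).toLinearMap) = (D.d m).baseChange A' := by
  refine LinearMap.ext fun t => ?_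
  induction t using TensorProduct.induction_on with
  | zero => simp
  | tmul a p =>
    obtain ⟨x, y⟩ := p
    simp only [LinearMap.coe_comp, LinearEquiv.coe_coe, Function.comp_apply,
      TensorProduct.prodRight_tmul, CechOps.d_apply, LinearMap.baseChange_tmul]
    show (D.r0.baseChange A') (a ⊗ₜ[A] x) -
      ((D.T.baseChange A') ^ m) ((D.r1.baseChange A') (a ⊗ₜ[A] y)) = _
    rw [baseChange_pow, LinearMap.baseChange_tmul, LinearMap.baseChange_tmul,
      LinearMap.baseChange_tmul, TensorProduct.tmul_sub]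
  | add x y hx hy => simp only [map_add, hx, hy]

end K5c

/-! ### The universal property of `N' = N[1/X]`, by hand -/

section Lift

variable {N : Type*} {N' : Type*} {M : Type*} [AddCommGroup N] [Module A N] [AddCommGroup N']
  [Module A N'] [AddCommGroup M] [Module A M]

theorem end_pow_pow_apply {M : Type*} [AddCommGroup M] [Module A M] {S Sinv : Module.End A M}
    (hS' : Sinv * S = 1) (k : ℕ) (y : M) : (Sinv ^ k) ((S ^ k) y) = y := by
  induction k generalizing y with
  | zero => simp
  | succ k ih =>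
    rw [pow_succ, pow_succ', Module.End.mul_apply, Module.End.mul_apply,
      ← Module.End.mul_apply Sinv S, hS', Module.End.one_apply, ih]

theorem end_pow_add_pow_apply {M : Type*} [AddCommGroup M] [Module A M] {S Sinv : Module.End A M}
    (hS' : Sinv * S = 1) (a b : ℕ) (y : M) : (Sinv ^ (a + b)) ((S ^ b) y) = (Sinv ^ a) y := by
  rw [pow_add, Module.End.mul_apply, end_pow_pow_apply hS']

/-- The universal property of the localisation `N' = N[1/X]`, by hand: an `X`-equivariant map
from `N` to a module on which the operator is invertible extends uniquely to `N'`. -/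
theorem exists_lift_of_loc
    (X : Module.End A N) (T Tinv : Module.End A N') (r : N →ₗ[A] N')
    (hT : T * Tinv = 1) (hr : ∀ n, r (X n) = T (r n))
    (hloc : ∀ z, ∃ (k : ℕ) (n : N), (T ^ k) z = r n) (hinj : Function.Injective r)
    (S Sinv : Module.End A M) (hS : S * Sinv = 1) (hS' : Sinv * S = 1)
    (f : N →ₗ[A] M) (hf : ∀ n, f (X n) = S (f n)) :
    ∃ g : N' →ₗ[A] M, (∀ n, g (r n) = f n) ∧ (∀ z, g (T z) = S (g z)) ∧
      (∀ z, g (Tinv z) = Sinv (g z)) ∧
      ∀ z k n, (T ^ k) z = r n → g z = (Sinv ^ k) (f n) := by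
  classical
  have hrpow : ∀ (k : ℕ) (n : N), r ((X ^ k) n) = (T ^ k) (r n) := by
    intro k
    induction k with
    | zero => intro n; simp
    | succ k ih =>
      intro n
      rw [pow_succ', Module.End.mul_apply, hr, ih, pow_succ', Module.End.mul_apply]
  have hfpow : ∀ (k : ℕ) (n : N), f ((X ^ k) n) = (S ^ k) (f n) := by
    intro k
    induction k with
    | zero => intro n; simp
    | succ k ih =>
      intro n
      rw [pow_succ', Module.End.mul_apply, hf, ih, pow_succ', Module.End.mul_apply]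
  have hcomm : Commute S Sinv := by
    show S * Sinv = Sinv * S
    rw [hS, hS']
  have key : ∀ (z : N') (k l : ℕ) (n n' : N), (T ^ k) z = r n → (T ^ l) z = r n' →
      (Sinv ^ k) (f n) = (Sinv ^ l) (f n') := by
    intro z k l n n' h1 h2
    have e : (X ^ l) n = (X ^ k) n' := by
      apply hinj
      rw [hrpow, hrpow, ← h1, ← h2, ← Module.End.mul_apply, ← Module.End.mul_apply, ← pow_add,
        ← pow_add, add_comm]
    calc (Sinv ^ k) (f n) = (Sinv ^ (k + l)) ((S ^ l) (f n)) := by
          rw [end_pow_add_pow_apply hS']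
      _ = (Sinv ^ (l + k)) ((S ^ k) (f n')) := by
          rw [← hfpow, e, hfpow, add_comm]
      _ = (Sinv ^ l) (f n') := by rw [end_pow_add_pow_apply hS']
  choose kf nf hkn using hloc
  have hg0 : ∀ (z : N') (k : ℕ) (n : N), (T ^ k) z = r n →
      (Sinv ^ (kf z)) (f (nf z)) = (Sinv ^ k) (f n) :=
    fun z k n h => key z _ _ _ _ (hkn z) h
  have hadd : ∀ z1 z2 : N', (Sinv ^ (kf (z1 + z2))) (f (nf (z1 + z2))) =
      (Sinv ^ (kf z1)) (f (nf z1)) + (Sinv ^ (kf z2)) (f (nf z2)) := by
    intro z1 z2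
    have h : (T ^ (kf z1 + kf z2)) (z1 + z2) =
        r ((X ^ kf z2) (nf z1) + (X ^ kf z1) (nf z2)) := by
      rw [map_add, map_add, hrpow, hrpow, ← hkn z1, ← hkn z2, ← Module.End.mul_apply,
        ← Module.End.mul_apply, ← pow_add, ← pow_add, add_comm (kf z2) (kf z1)]
    rw [hg0 _ _ _ h, map_add, map_add, hfpow, hfpow, end_pow_add_pow_apply hS',
      add_comm (kf z1) (kf z2), end_pow_add_pow_apply hS']
  have hsmul : ∀ (a : A) (z : N'), (Sinv ^ (kf (a • z))) (f (nf (a • z))) =
      a • (Sinv ^ (kf z)) (f (nf z)) := by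
    intro a z
    have h : (T ^ kf z) (a • z) = r (a • nf z) := by
      rw [map_smul, map_smul, hkn z]
    rw [hg0 _ _ _ h, map_smul, map_smul]
  refine ⟨{ toFun := fun z => (Sinv ^ (kf z)) (f (nf z))
            map_add' := hadd
            map_smul' := hsmul }, ?_, ?_, ?_, ?_⟩
  · intro n
    show (Sinv ^ (kf (r n))) (f (nf (r n))) = f n
    rw [hg0 (r n) 0 n (by simp)]
    simp
  · intro z
    show (Sinv ^ (kf (T z))) (f (nf (T z))) = S ((Sinv ^ (kf z)) (f (nf z)))
    have h : (T ^ kf z) (T z) = r (X (nf z)) := by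
      rw [hr, ← hkn z, ← Module.End.mul_apply, ← Module.End.mul_apply, ← pow_succ, ← pow_succ']
    rw [hg0 _ _ _ h, hf, ← Module.End.mul_apply, ← Module.End.mul_apply,
      (hcomm.pow_right (kf z)).eq]
  · intro z
    show (Sinv ^ (kf (Tinv z))) (f (nf (Tinv z))) = Sinv ((Sinv ^ (kf z)) (f (nf z)))
    have h : (T ^ (kf z + 1)) (Tinv z) = r (nf z) := by
      rw [pow_succ, Module.End.mul_apply, ← Module.End.mul_apply T Tinv, hT,
        Module.End.one_apply, hkn z]
    rw [hg0 _ _ _ h, pow_succ', Module.End.mul_apply]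
  · intro z k n h
    exact hg0 z k n h

end Lift

/-! ### Laurent polynomials: the model localisation `A[X]^n → A[T;T⁻¹]^n` -/

section Laurent

open scoped LaurentPolynomial

variable (A) (R : Type*) [CommRing R] [Algebra A R] (n : ℕ)

/-- Multiplication by `T` on `R[T;T⁻¹]^n`, as an `A`-linear endomorphism. -/
noncomputable def mulTPi : Module.End A (Fin n → R[T;T⁻¹]) :=
  Algebra.lsmul A A (Fin n → R[T;T⁻¹]) (LaurentPolynomial.T 1 : R[T;T⁻¹])

/-- Multiplication by `T⁻¹` on `R[T;T⁻¹]^n`, as an `A`-linear endomorphism. -/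
noncomputable def mulTinvPi : Module.End A (Fin n → R[T;T⁻¹]) :=
  Algebra.lsmul A A (Fin n → R[T;T⁻¹]) (LaurentPolynomial.T (-1) : R[T;T⁻¹])

theorem mulTPi_apply (z : Fin n → R[T;T⁻¹]) :
    mulTPi A R n z = (LaurentPolynomial.T 1 : R[T;T⁻¹]) • z := rfl

theorem mulTinvPi_apply (z : Fin n → R[T;T⁻¹]) :
    mulTinvPi A R n z = (LaurentPolynomial.T (-1) : R[T;T⁻¹]) • z := rfl

theorem mulTPi_mul_mulTinvPi : mulTPi A R n * mulTinvPi A R n = 1 := by
  rw [mulTPi, mulTinvPi, ← map_mul, ← LaurentPolynomial.T_add]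
  simp

theorem mulTinvPi_mul_mulTPi : mulTinvPi A R n * mulTPi A R n = 1 := by
  rw [mulTPi, mulTinvPi, ← map_mul, ← LaurentPolynomial.T_add]
  simp

theorem mulTPi_pow_apply (k : ℕ) (z : Fin n → R[T;T⁻¹]) :
    (mulTPi A R n ^ k) z = (LaurentPolynomial.T (k : ℤ) : R[T;T⁻¹]) • z := by
  rw [mulTPi, ← map_pow, LaurentPolynomial.T_pow, mul_one]
  rfl

/-- The inclusion `R[X]^n → R[T;T⁻¹]^n`, as an `A`-linear map. -/
noncomputable def toLaurentPi : (Fin n → R[X]) →ₗ[A] (Fin n → R[T;T⁻¹]) :=
  ((Polynomial.toLaurentAlg (R := R)).toLinearMap.restrictScalars A).compLeft (Fin n)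

theorem toLaurentPi_apply (w : Fin n → R[X]) (i : Fin n) :
    toLaurentPi A R n w i = Polynomial.toLaurent (w i) := rfl

theorem toLaurentPi_injective : Function.Injective (toLaurentPi A R n) := by
  intro w w' h
  funext i
  apply Polynomial.toLaurent_injective
  rw [← toLaurentPi_apply A R n w i, h, toLaurentPi_apply]

theorem toLaurentPi_X_smul (w : Fin n → R[X]) :
    toLaurentPi A R n ((X : R[X]) • w) = mulTPi A R n (toLaurentPi A R n w) := by
  funext i
  rw [mulTPi_apply, Pi.smul_apply, toLaurentPi_apply, toLaurentPi_apply, Pi.smul_apply,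
    smul_eq_mul, smul_eq_mul, map_mul, Polynomial.toLaurent_X]

theorem exists_mulTPi_pow_eq (z : Fin n → R[T;T⁻¹]) :
    ∃ (k : ℕ) (w : Fin n → R[X]), (mulTPi A R n ^ k) z = toLaurentPi A R n w := by
  choose kf wf h using fun i => LaurentPolynomial.exists_T_pow (z i)
  refine ⟨∑ i, kf i, fun i => X ^ (∑ j, kf j - kf i) * wf i, ?_⟩
  funext i
  have hle : kf i ≤ ∑ j, kf j := Finset.single_le_sum (f := kf) (fun _ _ => Nat.zero_le _)
    (Finset.mem_univ i)
  rw [mulTPi_pow_apply, Pi.smul_apply, toLaurentPi_apply, map_mul, h i,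
    Polynomial.toLaurent_X_pow, smul_eq_mul, mul_comm (z i), ← mul_assoc,
    ← LaurentPolynomial.T_add]
  congr 2
  push_cast [Nat.cast_sub hle]
  ring

end Laurent

/-! ### K5b and K1b -/

section K5b

open scoped LaurentPolynomial

variable {N0 N1 N01 : Type v}
  [AddCommGroup N0] [AddCommGroup N1] [AddCommGroup N01]
  [Module A N0] [Module A N1] [Module A N01]

/-- `N01` is a `T`-equivariant retract of `A[T;T⁻¹]^n`, compatibly with the retraction of `N0`. -/
theorem exists_retract_N01 (D : CechOps A N0 N1 N01) (h0 : IsFGProj D.X0)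
    (hr0 : Function.Injective D.r0) :
    ∃ (n : ℕ) (ι : N01 →ₗ[A] (Fin n → A[T;T⁻¹])) (π : (Fin n → A[T;T⁻¹]) →ₗ[A] N01),
      π ∘ₗ ι = LinearMap.id ∧ (∀ z, ι (D.T z) = mulTPi A A n (ι z)) ∧
        (∀ y, π (mulTPi A A n y) = D.T (π y)) := by
  obtain ⟨n, ι0, π0, hπι, hι, hπ⟩ := h0
  obtain ⟨ι, hι1, hι2, -, hι4⟩ := exists_lift_of_loc D.X0 D.T D.Tinv D.r0 D.T_mul_Tinv D.r0_X0
    D.loc0 hr0 (mulTPi A A n) (mulTinvPi A A n) (mulTPi_mul_mulTinvPi A A n)
    (mulTinvPi_mul_mulTPi A A n) (toLaurentPi A A n ∘ₗ ι0)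
    (fun v => by
      rw [LinearMap.comp_apply, hι, toLaurentPi_X_smul, LinearMap.comp_apply])
  obtain ⟨π, hπ1, hπ2, hπ3, -⟩ := exists_lift_of_loc (mulXPi A n) (mulTPi A A n)
    (mulTinvPi A A n) (toLaurentPi A A n) (mulTPi_mul_mulTinvPi A A n)
    (fun w => toLaurentPi_X_smul A A n w) (exists_mulTPi_pow_eq A A n)
    (toLaurentPi_injective A A n) D.T D.Tinv D.T_mul_Tinv D.Tinv_mul_T (D.r0 ∘ₗ π0)
    (fun w => by
      rw [LinearMap.comp_apply, mulXPi_apply, hπ, D.r0_X0, LinearMap.comp_apply])
  have hπpow : ∀ (k : ℕ) (y : Fin n → A[T;T⁻¹]),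
      π ((mulTinvPi A A n ^ k) y) = (D.Tinv ^ k) (π y) := by
    intro k
    induction k with
    | zero => intro y; simp
    | succ k ih =>
      intro y
      rw [pow_succ', Module.End.mul_apply, hπ3, ih, pow_succ', Module.End.mul_apply]
  refine ⟨n, ι, π, ?_, hι2, hπ2⟩
  refine LinearMap.ext fun z => ?_
  obtain ⟨k, v, hkv⟩ := D.loc0 z
  rw [LinearMap.comp_apply, hι4 z k v hkv, hπpow, LinearMap.comp_apply, hπ1,
    LinearMap.comp_apply, LinearMap.id_apply]
  have : π0 (ι0 v) = v := by
    rw [← LinearMap.comp_apply, hπι, LinearMap.id_apply]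
  rw [this, ← hkv, D.Tinv_pow_T_pow_apply]

/-- K1b. `N01` is projective over `A` (retract of `A[T;T⁻¹]^n`). -/
theorem projective_N01 (D : CechOps A N0 N1 N01) (h0 : IsFGProj D.X0)
    (hr0 : Function.Injective D.r0) : Module.Projective A N01 := by
  obtain ⟨n, ι, π, hπι, -, -⟩ := exists_retract_N01 D h0 hr0
  exact Module.Projective.of_split ι π hπι

variable (A' : Type w) [CommRing A'] [Algebra A A']

/-- K5b. Injectivity of the restriction map is stable under base change. -/
theorem r0_baseChange_injective (D : CechOps A N0 N1 N01) (h0 : IsFGProj D.X0)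
    (hr0 : Function.Injective D.r0) : Function.Injective (D.r0.baseChange A') := by
  obtain ⟨n, ι, π, hπι, hι, hπ⟩ := isFGProj_baseChange A' h0
  -- the `A'`-linear embedding `j : A' ⊗ N0 → A'[T;T⁻¹]^n`
  have hιinj : Function.Injective ι := by
    intro x y hxy
    have := congrArg π hxy
    rwa [← LinearMap.comp_apply, ← LinearMap.comp_apply, hπι] at this
  let f : N0 →ₗ[A] (Fin n → A'[T;T⁻¹]) :=
    toLaurentPi A A' n ∘ₗ ι.restrictScalars A ∘ₗ (TensorProduct.mk A A' N0 1)
  have hf : ∀ v, f (D.X0 v) = mulTPi A A' n (f v) := by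
    intro v
    show toLaurentPi A A' n (ι ((1 : A') ⊗ₜ[A] D.X0 v)) =
      mulTPi A A' n (toLaurentPi A A' n (ι ((1 : A') ⊗ₜ[A] v)))
    rw [← toLaurentPi_X_smul, ← hι, LinearMap.baseChange_tmul]
  obtain ⟨g, hg, -, -, -⟩ := exists_lift_of_loc D.X0 D.T D.Tinv D.r0 D.T_mul_Tinv D.r0_X0
    D.loc0 hr0 (mulTPi A A' n) (mulTinvPi A A' n) (mulTPi_mul_mulTinvPi A A' n)
    (mulTinvPi_mul_mulTPi A A' n) f hf
  have hcomp : ∀ t : A' ⊗[A] N0,
      LinearMap.liftBaseChange A' g (D.r0.baseChange A' t) = toLaurentPi A' A' n (ι t) := by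
    intro t
    induction t using TensorProduct.induction_on with
    | zero => simp
    | tmul a v =>
      rw [LinearMap.baseChange_tmul, LinearMap.liftBaseChange_tmul, hg]
      show a • toLaurentPi A' A' n (ι ((1 : A') ⊗ₜ[A] v)) = _
      rw [← map_smul, ← map_smul, TensorProduct.smul_tmul', smul_eq_mul, mul_one]
    | add x y hx hy => simp only [map_add, hx, hy]
  intro x y hxy
  apply hιinj
  apply toLaurentPi_injective A' A' n
  rw [← hcomp, ← hcomp, hxy]

end K5b

/-! ### K5d -/

section K5d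

variable {N0 N1 N01 : Type v}
  [AddCommGroup N0] [AddCommGroup N1] [AddCommGroup N01]
  [Module A N0] [Module A N1] [Module A N01]

/-- A surjective twisted differential has an `A`-linear section. -/
theorem exists_section_d (D : CechOps A N0 N1 N01) (h0 : IsFGProj D.X0)
    (hr0 : Function.Injective D.r0) (m : ℕ) (hsurj : Function.Surjective (D.d m)) :
    ∃ s : N01 →ₗ[A] N0 × N1, D.d m ∘ₗ s = LinearMap.id := by
  have := projective_N01 D h0 hr0
  exact Module.projective_lifting_property (D.d m) LinearMap.id hsurj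

/-- The kernel of a split surjection commutes with every base change. -/
theorem ker_baseChange_of_section {M : Type*} {P : Type*} [AddCommGroup M] [Module A M]
    [AddCommGroup P] [Module A P] (A' : Type w) [CommRing A'] [Algebra A A']
    (f : M →ₗ[A] P) (s : P →ₗ[A] M) (hs : f ∘ₗ s = LinearMap.id) :
    Function.Injective ((LinearMap.ker f).subtype.baseChange A') ∧
      LinearMap.range ((LinearMap.ker f).subtype.baseChange A') =
        LinearMap.ker (f.baseChange A') := by
  -- the retraction of `M` onto `ker f`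
  let p : M →ₗ[A] LinearMap.ker f :=
    LinearMap.codRestrict (LinearMap.ker f) (LinearMap.id - s ∘ₗ f) (fun x => by
      rw [LinearMap.mem_ker, LinearMap.sub_apply, map_sub, LinearMap.id_apply,
        LinearMap.comp_apply, ← LinearMap.comp_apply f s, hs, LinearMap.id_apply, sub_self])
  have hp1 : p ∘ₗ (LinearMap.ker f).subtype = LinearMap.id := by
    refine LinearMap.ext fun x => Subtype.ext ?_
    show (x : M) - s (f x) = x
    rw [LinearMap.mem_ker.mp x.2, map_zero, sub_zero]
  have hp2 : (LinearMap.ker f).subtype ∘ₗ p + s ∘ₗ f = LinearMap.id := by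
    refine LinearMap.ext fun x => ?_
    show (x - s (f x)) + s (f x) = x
    rw [sub_add_cancel]
  have hz : f ∘ₗ (LinearMap.ker f).subtype = 0 := by
    refine LinearMap.ext fun x => ?_
    exact LinearMap.mem_ker.mp x.2
  refine ⟨?_, le_antisymm ?_ ?_⟩
  · intro x y hxy
    have := congrArg (p.baseChange A') hxy
    rwa [← LinearMap.comp_apply, ← LinearMap.comp_apply, ← LinearMap.baseChange_comp, hp1,
      LinearMap.baseChange_id] at this
  · rintro _ ⟨t, rfl⟩
    rw [LinearMap.mem_ker, ← LinearMap.comp_apply, ← LinearMap.baseChange_comp, hz,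
      LinearMap.baseChange_zero, LinearMap.zero_apply]
  · intro x hx
    rw [LinearMap.mem_ker] at hx
    refine ⟨p.baseChange A' x, ?_⟩
    have h1 := congrArg (fun φ : M →ₗ[A] M => φ.baseChange A' x) hp2
    simp only [LinearMap.baseChange_add, LinearMap.baseChange_comp, LinearMap.add_apply,
      LinearMap.comp_apply, LinearMap.baseChange_id, LinearMap.id_apply, hx, map_zero,
      add_zero] at h1
    exact h1

variable (A' : Type w) [CommRing A'] [Algebra A A']

/-- K5d. If `d m` is surjective, `H⁰` commutes with base change: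
`A' ⊗ ker (d m) → ker (A' ⊗ d m)` is bijective. -/
theorem H0_baseChange_bijective (D : CechOps A N0 N1 N01)
    (h0 : IsFGProj D.X0) (hr0 : Function.Injective D.r0) (m : ℕ)
    (hsurj : Function.Surjective (D.d m)) :
    Function.Injective ((D.H0 m).subtype.baseChange A') ∧
      LinearMap.range ((D.H0 m).subtype.baseChange A') =
        LinearMap.ker ((D.d m).baseChange A') := by
  obtain ⟨s, hs⟩ := exists_section_d D h0 hr0 m hsurj
  exact ker_baseChange_of_section A' (D.d m) s hs

end K5d

end Fermat.Agent.S25.H370
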