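/-
S25, block ALGCHARTS, sub-leaf COV2, algebra part (helper370).  Mathlib only (+ `H565.RankOne`).

* `colon_top_smul_top` : in an invertible module `N` over a domain every submodule `M'` is
  `(M' : N) • N`.
* `le_of_smul_top_le_smul_top` : cancellation `I N ≤ I' N ⇒ I ≤ I'` for invertible `N`.
* `invertible_ideal_of_isDedekindDomain` : a nonzero ideal of a Dedekind domain is an invertible
  module.
* `nonempty_quotient_smul_top_equiv` : `N / I N ≃ₗ[K] R / I` for `N` invertible, `R / I`
  finite-dimensional over the field `K`.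
* `finrank_quotient_mul` : `dim R/(I I') = dim R/I + dim R/I'` in a Dedekind domain.
* `finrank_quotient_prod` : `dim R / (P₁ ⋯ P_m) = m` for maximal ideals with residue field `K`.
-/
import Mathlib
import Fermat.Agent.S25.H565.RankOne

set_option autoImplicit false

universe u

open scoped TensorProduct

namespace Fermat.Agent.S25.H370

open Module

section InvertibleColon

variable {R : Type*} [CommRing R] {N : Type*} [AddCommGroup N] [Module R N]
  [Module.Invertible R N]

theorem exists_contractLeft_eq_one :
    ∃ t : Dual R N ⊗[R] N, contractLeft R N t = 1 :=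
  (Module.Invertible.bijective (R := R) (M := N)).2 1

theorem dual_apply_mem_of_mem_smul_top (I : Ideal R) (ℓ : Dual R N) {n : N}
    (hn : n ∈ I • (⊤ : Submodule R N)) : ℓ n ∈ I := by
  refine Submodule.smul_induction_on hn (fun r hr m _ => ?_) (fun x y hx hy => ?_)
  · rw [map_smul, smul_eq_mul]
    exact I.mul_mem_right _ hr
  · rw [map_add]
    exact I.add_mem hx hy

/-- Cancellation of an invertible module: `I N ≤ I' N ⇒ I ≤ I'`. -/
theorem le_of_smul_top_le_smul_top {I I' : Ideal R}
    (h : I • (⊤ : Submodule R N) ≤ I' • ⊤) : I ≤ I' := by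
  intro r hr
  have key : ∀ t : Dual R N ⊗[R] N, contractLeft R N t * r ∈ I' := by
    intro t
    induction t using TensorProduct.induction_on with
    | zero => simp
    | tmul ℓ a =>
      rw [contractLeft_apply, mul_comm, ← smul_eq_mul, ← map_smul]
      exact dual_apply_mem_of_mem_smul_top I' ℓ (h (Submodule.smul_mem_smul hr trivial))
    | add x y hx hy =>
      rw [map_add, add_mul]
      exact I'.add_mem hx hy
  obtain ⟨t, ht⟩ := exists_contractLeft_eq_one (R := R) (N := N)
  have := key t
  rwa [ht, one_mul] at this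

variable [IsDomain R]

theorem dual_apply_mem_colon (M' : Submodule R N) (ℓ : Dual R N) {n : N} (hn : n ∈ M') :
    ℓ n ∈ M'.colon ((⊤ : Submodule R N) : Set N) := by
  rw [Submodule.mem_colon]
  intro p _
  rw [H565.dual_smul_comm ℓ n p]
  exact M'.smul_mem _ hn

/-- In an invertible module over a domain, every submodule `M'` is `(M' : N) • N`. -/
theorem colon_top_smul_top (M' : Submodule R N) :
    (M'.colon ((⊤ : Submodule R N) : Set N)) • (⊤ : Submodule R N) = M' := by
  apply le_antisymm
  · rw [Submodule.smul_le]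
    intro r hr n _
    exact Submodule.mem_colon.mp hr n trivial
  · intro n hn
    have key : ∀ t : Dual R N ⊗[R] N,
        contractLeft R N t • n ∈ (M'.colon ((⊤ : Submodule R N) : Set N)) •
          (⊤ : Submodule R N) := by
      intro t
      induction t using TensorProduct.induction_on with
      | zero => simp
      | tmul ℓ a =>
        rw [contractLeft_apply, H565.dual_smul_comm ℓ a n]
        exact Submodule.smul_mem_smul (dual_apply_mem_colon M' ℓ hn) trivial
      | add x y hx hy =>
        rw [map_add, add_smul]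
        exact Submodule.add_mem _ hx hy
    obtain ⟨t, ht⟩ := exists_contractLeft_eq_one (R := R) (N := N)
    have := key t
    rwa [ht, one_smul] at this

end InvertibleColon

section DedekindInvertible

variable {R : Type*} [CommRing R] [IsDedekindDomain R]

/-- A nonzero ideal of a Dedekind domain is an invertible module. -/
theorem invertible_ideal_of_isDedekindDomain (I : Ideal R) (hI : I ≠ ⊥) :
    Module.Invertible R I := by
  have hu : (I : FractionalIdeal (nonZeroDivisors R) (FractionRing R)) *
      (I : FractionalIdeal (nonZeroDivisors R) (FractionRing R))⁻¹ = 1 :=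
    mul_inv_cancel₀ (FractionalIdeal.coeIdeal_ne_zero.mpr hI)
  have hs : ((I : FractionalIdeal (nonZeroDivisors R) (FractionRing R)) :
        Submodule R (FractionRing R)) *
      (((I : FractionalIdeal (nonZeroDivisors R) (FractionRing R))⁻¹ :
        FractionalIdeal (nonZeroDivisors R) (FractionRing R)) :
          Submodule R (FractionRing R)) = 1 := by
    rw [← FractionalIdeal.coe_mul, hu, FractionalIdeal.coe_one]
  obtain ⟨U, hU⟩ : ∃ U : (Submodule R (FractionRing R))ˣ, (U : Submodule R (FractionRing R)) =
      Submodule.map (Algebra.linearMap R (FractionRing R)) I := by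
    refine ⟨⟨_, _, hs, by rw [mul_comm]; exact hs⟩, ?_⟩
    show ((I : FractionalIdeal (nonZeroDivisors R) (FractionRing R)) :
      Submodule R (FractionRing R)) = _
    rw [FractionalIdeal.coe_coeIdeal]
    rfl
  have hinv : Module.Invertible R U := inferInstance
  let e : I ≃ₗ[R] (U : Submodule R (FractionRing R)) :=
    (Submodule.equivMapOfInjective (Algebra.linearMap R (FractionRing R))
      (IsFractionRing.injective R (FractionRing R)) I).trans (LinearEquiv.ofEq _ _ hU.symm)
  exact Module.Invertible.congr e.symm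

end DedekindInvertible

section Dim

variable {K : Type u} [Field K] {R : Type u} [CommRing R] [Algebra K R]

/-- An invertible module modulo an ideal `I` with `R ⧸ I` finite-dimensional over a field is
isomorphic to `R ⧸ I` (invertible modules over semilocal rings are free). -/
theorem nonempty_quotient_smul_top_equiv (I : Ideal R) [Module.Finite K (R ⧸ I)] (N : Type u)
    [AddCommGroup N] [Module R N] [Module K N] [IsScalarTower K R N] [Module.Invertible R N] :
    Nonempty ((N ⧸ (I • ⊤ : Submodule R N)) ≃ₗ[K] (R ⧸ I)) := by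
  have hart : IsArtinianRing (R ⧸ I) := IsArtinianRing.of_finite K (R ⧸ I)
  have hfree : Module.Free (R ⧸ I) ((R ⧸ I) ⊗[R] N) :=
    CommRing.Pic.subsingleton_iff.mp inferInstance ((R ⧸ I) ⊗[R] N) inferInstance
  obtain ⟨e2⟩ := Module.Invertible.free_iff_linearEquiv.mp hfree
  let e1 : ((R ⧸ I) ⊗[R] N) ≃ₗ[R] N ⧸ (I • (⊤ : Submodule R N)) :=
    TensorProduct.quotTensorEquivQuotSMul N I
  exact ⟨(e1.restrictScalars K).symm.trans (e2.restrictScalars K)⟩

theorem finite_quotient_smul_top (I : Ideal R) [Module.Finite K (R ⧸ I)] (N : Type u)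
    [AddCommGroup N] [Module R N] [Module K N] [IsScalarTower K R N] [Module.Invertible R N] :
    Module.Finite K (N ⧸ (I • ⊤ : Submodule R N)) := by
  obtain ⟨e⟩ := nonempty_quotient_smul_top_equiv (K := K) I N
  exact Module.Finite.equiv e.symm

theorem finrank_quotient_smul_top (I : Ideal R) [Module.Finite K (R ⧸ I)] (N : Type u)
    [AddCommGroup N] [Module R N] [Module K N] [IsScalarTower K R N] [Module.Invertible R N] :
    finrank K (N ⧸ (I • ⊤ : Submodule R N)) = finrank K (R ⧸ I) := by
  obtain ⟨e⟩ := nonempty_quotient_smul_top_equiv (K := K) I N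
  exact e.finrank_eq

/-- Quotients by larger ideals stay finite-dimensional. -/
theorem finite_quotient_of_le {I I' : Ideal R} (h : I ≤ I') [Module.Finite K (R ⧸ I)] :
    Module.Finite K (R ⧸ I') := by
  let g : (R ⧸ I) →ₗ[K] (R ⧸ I') :=
    (Submodule.mapQ I I' LinearMap.id (by simpa using h)).restrictScalars K
  have hg : Function.Surjective g := by
    intro z
    obtain ⟨r, rfl⟩ := Submodule.mkQ_surjective I' z
    exact ⟨Submodule.Quotient.mk r, rfl⟩
  exact Module.Finite.of_surjective g hg

end Dim

section Mul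

variable {K : Type u} [Field K] {R : Type u} [CommRing R] [IsDedekindDomain R] [Algebra K R]

/-- In a Dedekind domain over a field, `dim R/(I I') = dim R/I + dim R/I'`. -/
theorem finrank_quotient_mul (I I' : Ideal R) (hI : I ≠ ⊥) [Module.Finite K (R ⧸ I)]
    [Module.Finite K (R ⧸ I')] :
    Module.Finite K (R ⧸ (I * I')) ∧
      finrank K (R ⧸ (I * I')) = finrank K (R ⧸ I) + finrank K (R ⧸ I') := by
  haveI := invertible_ideal_of_isDedekindDomain I hI
  have hle : I * I' ≤ I := Ideal.mul_le_left
  let gK : (R ⧸ (I * I')) →ₗ[K] (R ⧸ I) :=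
    (Submodule.mapQ (I * I') I LinearMap.id (by simpa using hle)).restrictScalars K
  have hg : Function.Surjective gK := by
    intro z
    obtain ⟨r, rfl⟩ := Submodule.mkQ_surjective I z
    exact ⟨Submodule.Quotient.mk r, rfl⟩
  let φK : I →ₗ[K] (R ⧸ (I * I')) := ((I * I').mkQ ∘ₗ I.subtype).restrictScalars K
  have hker : LinearMap.ker φK = (I' • (⊤ : Submodule R I)).restrictScalars K := by
    ext a
    rw [LinearMap.mem_ker, Submodule.restrictScalars_mem, Submodule.mem_smul_top_iff]
    show (I * I').mkQ (a : R) = 0 ↔ _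
    rw [Submodule.mkQ_apply, Submodule.Quotient.mk_eq_zero, Ideal.smul_eq_mul, mul_comm]
  have hrange : LinearMap.range φK = LinearMap.ker gK := by
    ext z
    obtain ⟨r, rfl⟩ := Submodule.mkQ_surjective (I * I') z
    rw [LinearMap.mem_range, LinearMap.mem_ker]
    show (∃ a : I, (I * I').mkQ (a : R) = (I * I').mkQ r) ↔ I.mkQ r = 0
    rw [Submodule.mkQ_apply I, Submodule.Quotient.mk_eq_zero]
    constructor
    · rintro ⟨a, ha⟩
      rw [Submodule.mkQ_apply, Submodule.mkQ_apply, Submodule.Quotient.eq] at ha
      have h1 : (a : R) - r ∈ I := hle ha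
      have h2 : r = (a : R) - ((a : R) - r) := by ring
      rw [h2]
      exact I.sub_mem a.2 h1
    · intro hr
      exact ⟨⟨r, hr⟩, rfl⟩
  obtain ⟨e0⟩ := nonempty_quotient_smul_top_equiv (K := K) I' I
  let e : LinearMap.ker gK ≃ₗ[K] (R ⧸ I') :=
    (LinearEquiv.ofEq _ _ hrange.symm).trans (φK.quotKerEquivRange.symm.trans
      ((Submodule.quotEquivOfEq _ _ hker).trans
        ((Submodule.Quotient.restrictScalarsEquiv K (I' • (⊤ : Submodule R I))).trans e0)))
  have hfk : Module.Finite K (LinearMap.ker gK) := Module.Finite.equiv e.symm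
  have hfin : Module.Finite K (R ⧸ (I * I')) := by
    have : Module.Finite K ((R ⧸ (I * I')) ⧸ LinearMap.ker gK) :=
      Module.Finite.equiv (gK.quotKerEquivOfSurjective hg).symm
    exact Module.Finite.of_submodule_quotient (LinearMap.ker gK)
  refine ⟨hfin, ?_⟩
  have h := LinearMap.finrank_range_add_finrank_ker gK
  rw [LinearMap.range_eq_top.mpr hg, finrank_top, e.finrank_eq] at h
  exact h.symm

/-- `dim R / (P₁ ⋯ P_m) = m` for nonzero ideals `P i` with `dim R / P i = 1`. -/
theorem finrank_quotient_prod (m : ℕ) (P : Fin m → Ideal R) (hP : ∀ i, P i ≠ ⊥)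
    (h1 : ∀ i, Module.Finite K (R ⧸ P i) ∧ finrank K (R ⧸ P i) = 1) :
    Module.Finite K (R ⧸ ∏ i, P i) ∧ finrank K (R ⧸ ∏ i, P i) = m := by
  induction m with
  | zero =>
    have h : (∏ i, P i) = ⊤ := by simp
    rw [h]
    have : Subsingleton (R ⧸ (⊤ : Ideal R)) := Submodule.Quotient.subsingleton_iff.mpr rfl
    exact ⟨inferInstance, finrank_zero_of_subsingleton⟩
  | succ m ih =>
    rw [Fin.prod_univ_succ]
    obtain ⟨hf, hr⟩ := ih (fun i : Fin m => P i.succ) (fun i => hP i.succ) (fun i => h1 i.succ)
    have hf0 : Module.Finite K (R ⧸ P 0) := (h1 0).1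
    obtain ⟨hf', hr'⟩ := finrank_quotient_mul (K := K) (P 0) (∏ i : Fin m, P i.succ) (hP 0)
    exact ⟨hf', by rw [hr', (h1 0).2, hr]; omega⟩

end Mul

end Fermat.Agent.S25.H370
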