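/-
S25, block ALGCHARTS, sub-leaf COV2 of COVER (helper370), and COV12 = COV1 + COV2.

Over a field `K ⊇ k`, a gluing datum `G` of degree `0` with `P2 x y n q G` (a generator `s` of
`H⁰(G(n E₀ - Σ q))` not vanishing on `E₀`) and `m + g = n d` satisfies `P3 x y n q β G` for a
suitable Hilbert chart `β : Fin g → B₀`:

* `R₀ = K ⊗ B₀` is a Dedekind domain and `N₀` is invertible, so `R₀ s₀ = J N₀` with
  `J = (R₀ s₀ : N₀)`; `s₀ ∈ I_q N₀` gives `J ≤ I_q`, hence `J = I' I_q`;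
* `dim R₀ / J = dim N₀ / (s₀) = n d` (DEG2), `dim R₀ / I_q = m`, so `dim R₀ / I' = g`;
* every `K`-point of `Hilb^g` lies in a chart (`H491.exists_isChart_of_isLocalRing`).
-/
import Fermat.Agent.S25.H370.DedekindDim
import Fermat.Agent.S25.H11.ACLeaves
import Fermat.Agent.S25.H565.ACDeg2
import Fermat.Agent.S25.H971.ACCov1
import Fermat.Agent.S25.H791.ACPtIdeal
import Fermat.Agent.S25.H250.DegSec
import Fermat.Agent.S25.H190.ACDeg3
import Fermat.Agent.S25.H491.HilbLocus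
import Fermat.Agent.S25.H207.ChartCor

set_option autoImplicit false
set_option linter.style.haveILetI false
set_option linter.unusedSectionVars false

universe u

open scoped TensorProduct

namespace Fermat.Agent.S25.H370

open Fermat.Agent.S25 Fermat.Agent.S25.H11 Module

variable {k : Type u} [Field k] [IsAlgClosed k]
  {B₀ B₁ B₀₁ : Type u} [CommRing B₀] [CommRing B₁] [CommRing B₀₁]
  [Algebra k B₀] [Algebra k B₁] [Algebra k B₀₁] [Algebra B₀ B₀₁] [Algebra B₁ B₀₁]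
  [IsScalarTower k B₀ B₀₁] [IsScalarTower k B₁ B₀₁]
  {x : B₀} {y : B₁} {e : B₁ →ₐ[k] k}
  {K : Type u} [Field K] [Algebra k K]

/-- The quotient of `K ⊗ B₀` by a nonzero ideal is finite-dimensional. -/
theorem finite_quotient_of_ne_bot (hC : IsCurveChart k B₀ B₁ B₀₁ x y e)
    (J : Ideal (K ⊗[k] B₀)) (hJ : J ≠ ⊥) : Module.Finite K ((K ⊗[k] B₀) ⧸ J) := by
  haveI := H207.isDedekindDomain_tensor_chart₀ hC K
  obtain ⟨a, haJ, ha0⟩ := Submodule.exists_mem_ne_zero_of_ne_bot hJ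
  have hfin := H791.finite_aeval_tmul (k := k) (B₁ := B₁) (B₀₁ := B₀₁) K hC
  obtain ⟨c, hc, hdvd⟩ := H565.exists_polynomial_dvd (K := K) _ hfin a ha0
  have h := H565.finiteDimensional_quotient_of_aeval_smul_mem (K := K) _ hfin
    (N := K ⊗[k] B₀) (J.restrictScalars K) c hc (fun n => by
      rw [Submodule.restrictScalars_mem, smul_eq_mul]
      exact J.mul_mem_right _ (Ideal.mem_of_dvd J hdvd haJ))
  exact Module.Finite.equiv (Submodule.Quotient.restrictScalarsEquiv K J)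

/-- `dim_K (K ⊗ B₀) / I_q = m`. -/
theorem finrank_quotient_ptIdeal (hC : IsCurveChart k B₀ B₁ B₀₁ x y e) {m : ℕ}
    (q : Fin m → (B₀ →ₐ[k] k)) :
    Module.Finite K ((K ⊗[k] B₀) ⧸ ptIdeal q K) ∧
      finrank K ((K ⊗[k] B₀) ⧸ ptIdeal q K) = m := by
  haveI := H207.isDedekindDomain_tensor_chart₀ hC K
  refine finrank_quotient_prod (K := K) m (fun i => RingHom.ker (ptHom (q i) K))
    (fun i => Ring.ne_bot_of_isMaximal_of_not_isField (H971.ker_ptHom_isMaximal (q i))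
      (H207.not_isField_tensor_chart₀ hC K)) (fun i => ?_)
  let e1 : ((K ⊗[k] B₀) ⧸ RingHom.ker (ptHom (q i) K)) ≃ₐ[K] K :=
    Ideal.quotientKerAlgEquivOfSurjective (H971.ptHom_surjective (q i))
  exact ⟨Module.Finite.equiv e1.symm.toLinearEquiv,
    by rw [e1.toLinearEquiv.finrank_eq, Module.finrank_self]⟩

/-- **COV2.** Over a field, `P2` and the numerical constraint `m + g = n d` give `P3` for a
suitable Hilbert chart `β`. -/
theorem cov2 (hC : IsCurveChart k B₀ B₁ B₀₁ x y e) (G : CurveGD k B₀ B₁ B₀₁ K)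
    (hdeg : G.degree = 0) (n m g : ℕ) (q : Fin m → (B₀ →ₐ[k] k))
    (hnum : m + g = n * Module.finrank k (B₁ ⧸ Ideal.span {y}))
    (h2 : P2 x y n q G) : ∃ β : Fin g → B₀, P3 x y n q β G := by
  obtain ⟨h1, s, hs⟩ := h2
  haveI hded := H207.isDedekindDomain_tensor_chart₀ hC K
  haveI := G.invertible₀
  -- the section does not vanish identically
  have hs2 : s.2 ≠ 0 := H565.ne_zero_of_genModY hC G s.2 hs.gen
  have hs1 : s.1 ≠ 0 := fun h =>
    hs2 (congrArg Prod.snd (H971.eq_zero_of_fst_eq_zero hC G hs.mem.1 h))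
  -- the ideal `J = (R₀ s₀ : N₀)`
  obtain ⟨J, hJ⟩ : ∃ J : Ideal (K ⊗[k] B₀),
      J • (⊤ : Submodule (K ⊗[k] B₀) G.N₀) = Submodule.span (K ⊗[k] B₀) {s.1} :=
    ⟨_, colon_top_smul_top _⟩
  have hJ0 : J ≠ ⊥ := by
    intro h
    rw [h, Submodule.bot_smul] at hJ
    exact hs1 (Submodule.span_singleton_eq_bot.mp hJ.symm)
  have hJq : J ≤ ptIdeal q K := by
    apply le_of_smul_top_le_smul_top (N := G.N₀)
    rw [hJ, Submodule.span_singleton_le_iff_mem]
    exact hs.mem.2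
  obtain ⟨I', hI'⟩ := Ideal.dvd_iff_le.mpr hJq
  have hJ' : J = I' * ptIdeal q K := by rw [hI', mul_comm]
  have hI'0 : I' ≠ ⊥ := by
    rintro rfl
    exact hJ0 (by rw [hJ', Ideal.bot_mul])
  -- dimensions
  obtain ⟨hfinN, hdegeq⟩ := H565.degree_eq_of_section hC G n s hs.mem.1 hs.gen
  rw [hdeg] at hdegeq
  have hN : finrank K (G.N₀ ⧸ Submodule.span (K ⊗[k] B₀) {s.1}) =
      n * Module.finrank k (B₁ ⧸ Ideal.span {y}) := by
    have := hdegeq
    push_cast at this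
    exact_mod_cast (sub_eq_zero.mp this.symm)
  haveI hfJ : Module.Finite K ((K ⊗[k] B₀) ⧸ J) := finite_quotient_of_ne_bot hC J hJ0
  have hRJ : finrank K ((K ⊗[k] B₀) ⧸ J) = n * Module.finrank k (B₁ ⧸ Ideal.span {y}) := by
    rw [← finrank_quotient_smul_top (K := K) J G.N₀]
    rw [← hJ] at hN
    exact hN
  haveI hfI' : Module.Finite K ((K ⊗[k] B₀) ⧸ I') :=
    finite_quotient_of_le (K := K) (I := J) (by rw [hJ']; exact Ideal.mul_le_left)
  obtain ⟨hfq, hq⟩ := finrank_quotient_ptIdeal (K := K) hC q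
  haveI := hfq
  obtain ⟨-, hmul⟩ := finrank_quotient_mul (K := K) I' (ptIdeal q K) hI'0
  rw [← hJ', hRJ, hq] at hmul
  have hI'g : finrank K ((K ⊗[k] B₀) ⧸ I') = g := by omega
  -- the Hilbert point `I'` lies in a chart
  have hH : H491.IsHilb g I' :=
    ⟨hfI', inferInstance, fun p => by
      rw [Module.rankAtStalk_eq_finrank_of_free]
      simp [hI'g]⟩
  obtain ⟨β, hβ⟩ := H491.exists_isChart_of_isLocalRing hH
  exact ⟨β, h1, s, hs, I', hβ, by rw [← hJ', hJ]⟩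

/-- **COV12 = COV1 + COV2.** Over a field, every gluing datum of degree `0` satisfies `P3` for a
suitable numeric chart index (with `f = 1`). -/
theorem cov12 (hC : IsCurveChart k B₀ B₁ B₀₁ x y e) (G : CurveGD k B₀ B₁ B₀₁ K)
    (hdeg : G.degree = 0) :
    ∃ i : ChartIndex k B₀, i.Numeric B₀₁ y ∧ Function.Injective i.q ∧
      P3 x y i.n i.q i.β G := by
  obtain ⟨n, m, q, hq, hnum, h2⟩ := H971.cov1 hC G (H190.exists_P0 hC G)
    (fun n h0 => H250.finrank_sec hC G hdeg n h0)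
  obtain ⟨β, h3⟩ := cov2 hC G hdeg n m _ q hnum h2
  exact ⟨⟨n, m, _, q, β, 1⟩, ⟨hnum, rfl⟩, hq, h3⟩

end Fermat.Agent.S25.H370
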