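/-
S25, block ALGCHARTS, leaf ST0 (helper370): `stage0_locus`, EXACT statement of helper11's
skeleton (`coord/S25-ALGCHARTS-skeleton.lean`), i.e. `H11.Leaf.Stage0`.

`P0 x n G'` says that `Ȟ¹(G'(n E₀)) = 0`.  `Ȟ¹(G(n E₀))` is a finitely generated `A`-module
(D1) which commutes with every base change (`H310.BCMaps.H1Equiv`), so the locus is cut out by
`J := Ann_A Ȟ¹(G(n E₀))` (`H791.subsingleton_tensorProduct_iff`).
-/
import Fermat.Agent.S25.H11.ACLeaves
import Fermat.Agent.S25.H190.ACDeg3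
import Fermat.Agent.S25.H310.DegreeD2
import Fermat.Agent.S25.H791.SupportBaseChange
import Fermat.Agent.S25.H10.DegreeTwist

set_option autoImplicit false

universe u

open scoped TensorProduct

namespace Fermat.Agent.S25.H370

open Fermat.Agent.S25 Fermat.Agent.S25.H10 Fermat.Agent.S25.H11

variable {k : Type u} [Field k]
  {B₀ B₁ B₀₁ : Type u} [CommRing B₀] [CommRing B₁] [CommRing B₀₁]
  [Algebra k B₀] [Algebra k B₁] [Algebra k B₀₁] [Algebra B₀ B₀₁] [Algebra B₁ B₀₁]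
  [IsScalarTower k B₀ B₀₁] [IsScalarTower k B₁ B₀₁]
  {x : B₀} {y : B₁} {e : B₁ →ₐ[k] k}

section Stage0

variable {A : Type u} [CommRing A] [Algebra k A]

/-- A linear map is onto iff its cokernel is trivial. -/
theorem surjective_iff_subsingleton_quotient_range {R M N : Type*} [Ring R] [AddCommGroup M]
    [AddCommGroup N] [Module R M] [Module R N] (f : M →ₗ[R] N) :
    Function.Surjective f ↔ Subsingleton (N ⧸ LinearMap.range f) := by
  rw [Submodule.Quotient.subsingleton_iff, LinearMap.range_eq_top]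

/-- `P0 x n G` iff `Ȟ¹(G(n E₀)) = 0`. -/
theorem P0_iff_subsingleton_H1 (hC : IsCurveChart k B₀ B₁ B₀₁ x y e) (n : ℕ)
    (G : CurveGD k B₀ B₁ B₀₁ A) :
    P0 x n G ↔ Subsingleton (twistE x y hC.mul_eq_one G (n : ℤ)).H1 := by
  have h := surjective_iff_subsingleton_quotient_range
    (twistE x y hC.mul_eq_one G (n : ℤ)).cech
  rw [← H190.tcech_eq_twistE_cech hC n G] at h
  exact h

/-- ST0 without `IsAlgClosed`: the locus `Ȟ¹(G(n E₀)) = 0` is cut out by the annihilator of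
`Ȟ¹(G(n E₀))`. -/
theorem stage0_locus_ann (hC : IsCurveChart k B₀ B₁ B₀₁ x y e) (n : ℕ)
    (G : CurveGD k B₀ B₁ B₀₁ A) (A' : Type u) [CommRing A'] [Algebra k A'] (ψ : A →ₐ[k] A')
    (G' : CurveGD k B₀ B₁ B₀₁ A') (hbc : CurveGD.IsBC ψ G G') :
    P0 x n G' ↔
      (Module.annihilator A (twistE x y hC.mul_eq_one G (n : ℤ)).H1).map ψ.toRingHom = ⊤ := by
  have : Module.Finite A (twistE x y hC.mul_eq_one G (n : ℤ)).H1 :=
    H10.finite_H1 hC (twistE x y hC.mul_eq_one G (n : ℤ))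
  let : Algebra A A' := ψ.toRingHom.toAlgebra
  have : IsScalarTower k A A' := IsScalarTower.of_algebraMap_eq' ψ.comp_algebraMap.symm
  obtain ⟨bm⟩ := H310.D2.twistE_isBC hC ψ hbc (n : ℤ)
  have bm' : H310.BCMaps (twistE x y hC.mul_eq_one G (n : ℤ))
      (twistE x y hC.mul_eq_one G' (n : ℤ)) := bm
  rw [P0_iff_subsingleton_H1 hC n G']
  rw [← (H310.BCMaps.H1Equiv bm').toEquiv.subsingleton_congr]
  exact H791.subsingleton_tensorProduct_iff _ A'

end Stage0

section Leaf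

variable [IsAlgClosed k] {A : Type u} [CommRing A] [Algebra k A]

/-- STAGE 0: the locus `H¹(G(nE₀)) = 0`. -/
theorem stage0_locus (hC : IsCurveChart k B₀ B₁ B₀₁ x y e) (n : ℕ)
    (G : CurveGD k B₀ B₁ B₀₁ A) :
    ∃ J : Ideal A, ∀ (A' : Type u) [CommRing A'] [Algebra k A'] (ψ : A →ₐ[k] A')
      (G' : CurveGD k B₀ B₁ B₀₁ A'), CurveGD.IsBC ψ G G' →
        (P0 x n G' ↔ J.map ψ.toRingHom = ⊤) :=
  ⟨_, fun A' _ _ ψ G' hbc => stage0_locus_ann hC n G A' ψ G' hbc⟩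

/-- ST0 as the frozen `Prop` `H11.Leaf.Stage0`. -/
theorem leaf_stage0 (k : Type u) [Field k] [IsAlgClosed k] (B₀ B₁ B₀₁ : Type u) [CommRing B₀]
    [CommRing B₁] [CommRing B₀₁] [Algebra k B₀] [Algebra k B₁] [Algebra k B₀₁] [Algebra B₀ B₀₁]
    [Algebra B₁ B₀₁] [IsScalarTower k B₀ B₀₁] [IsScalarTower k B₁ B₀₁] :
    H11.Leaf.Stage0 k B₀ B₁ B₀₁ :=
  fun _ _ _ hC n _ _ _ G => stage0_locus hC n G

end Leaf

end Fermat.Agent.S25.H370
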