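/-
S25, block CECH (squad S25/S10), leaf K3 (helper370, second owner): the five-term sequence
`0 → H⁰(L) → H⁰(L(m∞)) → N1/y^m N1 → H¹(L) → H¹(L(m∞)) → 0`
for the operator-style Čech core.  Statements exactly as in `CechSkel.lean` (origin/helper10).
-/
import Fermat.Agent.S25.H10.CechDefs

set_option autoImplicit false

namespace Fermat.Agent.S25.H370

open Polynomial TensorProduct Fermat.Agent.S25.H10

universe u v

variable {A : Type u} [CommRing A] {N0 N1 N01 : Type v}
  [AddCommGroup N0] [AddCommGroup N1] [AddCommGroup N01]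
  [Module A N0] [Module A N1] [Module A N01]

/-- K3a. -/
theorem incl_injective (D : CechOps A N0 N1 N01) (h1 : Function.Injective D.Y1) (m : ℕ) :
    Function.Injective (D.incl m) := by
  have hpow : Function.Injective (D.Y1 ^ m) := by
    induction m with
    | zero => intro x y h; simpa using h
    | succ k ih =>
      intro x y h
      rw [pow_succ', Module.End.mul_apply, Module.End.mul_apply] at h
      exact ih (h1 h)
  rintro ⟨⟨a, b⟩, hab⟩ ⟨⟨a', b'⟩, hab'⟩ h
  have h' := congrArg (fun q : D.H0 m => (q : N0 × N1)) h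
  simp only [CechOps.incl_apply_coe, Prod.mk.injEq] at h'
  apply Subtype.ext
  exact Prod.ext h'.1 (hpow h'.2)

/-- K3b. Exactness at `H⁰(L(m∞))`. -/
theorem range_incl_eq_ker_δ (D : CechOps A N0 N1 N01) (m : ℕ) :
    LinearMap.range (D.incl m) = LinearMap.ker (D.δ m) := by
  ext ⟨⟨a, b⟩, hab⟩
  constructor
  · rintro ⟨⟨⟨a', b'⟩, hab'⟩, h⟩
    have h' := congrArg (fun q : D.H0 m => (q : N0 × N1)) h
    simp only [CechOps.incl_apply_coe, Prod.mk.injEq] at h'
    rw [LinearMap.mem_ker, CechOps.δ_apply, Submodule.mkQ_apply, Submodule.Quotient.mk_eq_zero]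
    exact ⟨b', h'.2⟩
  · intro h
    rw [LinearMap.mem_ker, CechOps.δ_apply, Submodule.mkQ_apply,
      Submodule.Quotient.mk_eq_zero] at h
    obtain ⟨b', hb'⟩ := h
    have hb'' : (D.Y1 ^ m) b' = b := hb'
    have hab0 : (a, b') ∈ D.H0 0 := by
      rw [CechOps.mem_ker_d] at hab ⊢
      simp only [pow_zero, Module.End.one_apply]
      rw [hab, ← hb'', D.r1_Y1_pow, D.T_pow_Tinv_pow_apply]
    refine ⟨⟨(a, b'), hab0⟩, ?_⟩
    apply Subtype.ext
    rw [CechOps.incl_apply_coe]
    exact Prod.ext rfl hb''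

/-- K3c. Exactness at `N1 / y^m N1`. -/
theorem range_δ_eq_ker_conn (D : CechOps A N0 N1 N01) (m : ℕ) :
    LinearMap.range (D.δ m) = LinearMap.ker (D.conn m) := by
  ext q
  obtain ⟨b, rfl⟩ := Submodule.mkQ_surjective _ q
  rw [Submodule.mkQ_apply]
  constructor
  · rintro ⟨⟨⟨a', b'⟩, hab'⟩, h⟩
    rw [CechOps.δ_apply, Submodule.mkQ_apply] at h
    rw [LinearMap.mem_ker, ← h, CechOps.conn_mk, Submodule.Quotient.mk_eq_zero]
    rw [CechOps.mem_ker_d] at hab'
    exact ⟨(a', 0), by simp [hab']⟩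
  · intro h
    rw [LinearMap.mem_ker, CechOps.conn_mk, Submodule.Quotient.mk_eq_zero] at h
    obtain ⟨⟨a, b''⟩, hab⟩ := h
    rw [CechOps.d_apply] at hab
    simp only [pow_zero, Module.End.one_apply] at hab
    have hmem : (a, b + (D.Y1 ^ m) b'') ∈ D.H0 m := by
      rw [CechOps.mem_ker_d]
      simp only [map_add]
      rw [D.r1_Y1_pow, D.T_pow_Tinv_pow_apply, ← hab]
      abel
    refine ⟨⟨(a, b + (D.Y1 ^ m) b''), hmem⟩, ?_⟩
    rw [CechOps.δ_apply, Submodule.mkQ_apply]
    show (Submodule.Quotient.mk (b + (D.Y1 ^ m) b'') : N1 ⧸ LinearMap.range (D.Y1 ^ m)) = _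
    rw [Submodule.Quotient.mk_add, add_eq_left, Submodule.Quotient.mk_eq_zero]
    exact ⟨b'', rfl⟩

/-- K3d. If `H¹(L(m∞)) = 0` then `conn` is onto `H¹(L)`. -/
theorem conn_surjective (D : CechOps A N0 N1 N01) (m : ℕ)
    (hsurj : Function.Surjective (D.d m)) : Function.Surjective (D.conn m) := by
  intro q
  obtain ⟨z, rfl⟩ := Submodule.mkQ_surjective _ q
  obtain ⟨⟨a, b⟩, hab⟩ := hsurj z
  rw [CechOps.d_apply] at hab
  refine ⟨Submodule.Quotient.mk (-b), ?_⟩
  rw [CechOps.conn_mk, Submodule.mkQ_apply, Submodule.Quotient.eq]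
  refine ⟨(-a, 0), ?_⟩
  rw [CechOps.d_apply, ← hab]
  simp only [map_neg, map_zero, sub_zero]
  abel

end Fermat.Agent.S25.H370
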