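/-
S25, block CECH (squad S25/S10), leaf K6 core (helper370): the finite model
`δ m : H⁰(L(m∞)) → N1 / y^m N1` computes `H⁰`, `H¹` of the Čech complex after every base change.

* `injective_of_isFGProj` (K0c);
* `quotBaseChangeEquiv` : `(A' ⊗ N) ⧸ range (A' ⊗ f) ≃ₗ[A'] A' ⊗ (N ⧸ range f)`;
* `H0BaseChangeEquiv`   : `A' ⊗ H⁰(D, m) ≃ₗ[A'] H⁰(D.baseChange A', m)` when `d m` is onto;
* `finite_model_baseChange` : the base-change part of K6, for every `m` with `d m` onto;
* `exists_finite_model_of` : K6 (`exists_finite_model` of `CechSkel.lean`) from the conclusions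
  of K2 (`d m` onto for some `m`), K1 (`H⁰(L(m∞))` f.g. projective) and K0e.
-/
import Fermat.Agent.S25.H370.CechK3
import Fermat.Agent.S25.H370.CechK5

set_option autoImplicit false

namespace Fermat.Agent.S25.H370

open Polynomial TensorProduct Fermat.Agent.S25.H10

universe u v w

variable {A : Type u} [CommRing A]

/-- K0c. `E` is injective on a retract of `A[X]^n`. -/
theorem injective_of_isFGProj {N : Type v} [AddCommGroup N] [Module A N] {E : Module.End A N}
    (h : IsFGProj E) : Function.Injective E := by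
  obtain ⟨n, ι, π, hπι, hι, -⟩ := h
  have hιinj : Function.Injective ι := by
    intro x y hxy
    have := congrArg π hxy
    rwa [← LinearMap.comp_apply, ← LinearMap.comp_apply, hπι] at this
  intro x y hxy
  apply hιinj
  have h1 : (X : A[X]) • ι x = (X : A[X]) • ι y := by rw [← hι, ← hι, hxy]
  funext i
  have h2 := congrFun h1 i
  simp only [Pi.smul_apply, smul_eq_mul] at h2
  exact (Polynomial.isRegular_X (R := A)).left h2

section BaseChange

variable (A' : Type w) [CommRing A'] [Algebra A A']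

theorem baseChange_surjective' {M : Type*} {P : Type*} [AddCommGroup M] [Module A M]
    [AddCommGroup P] [Module A P] (f : M →ₗ[A] P) (hf : Function.Surjective f) :
    Function.Surjective (f.baseChange A') := by
  rw [LinearMap.baseChange_eq_ltensor]
  exact LinearMap.lTensor_surjective A' hf

theorem baseChange_exact_mkQ {M : Type*} {N : Type*} [AddCommGroup M] [Module A M]
    [AddCommGroup N] [Module A N] (f : M →ₗ[A] N) :
    Function.Exact (f.baseChange A') ((LinearMap.range f).mkQ.baseChange A') := by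
  rw [LinearMap.baseChange_eq_ltensor, LinearMap.baseChange_eq_ltensor]
  refine lTensor_exact A' ?_ (Submodule.mkQ_surjective _)
  rw [LinearMap.exact_iff, Submodule.ker_mkQ]

/-- The canonical map `(A' ⊗ N) ⧸ range (A' ⊗ f) → A' ⊗ (N ⧸ range f)`. -/
noncomputable def quotBaseChangeMap {M : Type*} {N : Type*} [AddCommGroup M] [Module A M]
    [AddCommGroup N] [Module A N] (f : M →ₗ[A] N) :
    ((A' ⊗[A] N) ⧸ LinearMap.range (f.baseChange A')) →ₗ[A']
      A' ⊗[A] (N ⧸ LinearMap.range f) :=
  Submodule.liftQ _ ((LinearMap.range f).mkQ.baseChange A') (by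
    rintro _ ⟨t, rfl⟩
    exact (baseChange_exact_mkQ A' f).apply_apply_eq_zero t)

theorem quotBaseChangeMap_mk {M : Type*} {N : Type*} [AddCommGroup M] [Module A M]
    [AddCommGroup N] [Module A N] (f : M →ₗ[A] N) (z : A' ⊗[A] N) :
    quotBaseChangeMap A' f (Submodule.Quotient.mk z) =
      (LinearMap.range f).mkQ.baseChange A' z := rfl

theorem quotBaseChangeMap_bijective {M : Type*} {N : Type*} [AddCommGroup M] [Module A M]
    [AddCommGroup N] [Module A N] (f : M →ₗ[A] N) :
    Function.Bijective (quotBaseChangeMap A' f) := by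
  constructor
  · rw [← LinearMap.ker_eq_bot, quotBaseChangeMap, Submodule.ker_liftQ,
      (baseChange_exact_mkQ A' f).linearMap_ker_eq, Submodule.mkQ_map_self]
  · intro y
    obtain ⟨t, rfl⟩ := baseChange_surjective' A' _ (Submodule.mkQ_surjective _) y
    exact ⟨Submodule.Quotient.mk t, rfl⟩

/-- Right exactness of base change: `(A' ⊗ N) ⧸ range (A' ⊗ f) ≃ₗ[A'] A' ⊗ (N ⧸ range f)`. -/
noncomputable def quotBaseChangeEquiv {M : Type*} {N : Type*} [AddCommGroup M] [Module A M]
    [AddCommGroup N] [Module A N] (f : M →ₗ[A] N) :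
    ((A' ⊗[A] N) ⧸ LinearMap.range (f.baseChange A')) ≃ₗ[A']
      A' ⊗[A] (N ⧸ LinearMap.range f) :=
  LinearEquiv.ofBijective (quotBaseChangeMap A' f) (quotBaseChangeMap_bijective A' f)

theorem quotBaseChangeEquiv_mk {M : Type*} {N : Type*} [AddCommGroup M] [Module A M]
    [AddCommGroup N] [Module A N] (f : M →ₗ[A] N) (z : A' ⊗[A] N) :
    quotBaseChangeEquiv A' f (Submodule.Quotient.mk z) =
      (LinearMap.range f).mkQ.baseChange A' z := rfl

variable {N0 N1 N01 : Type v}
  [AddCommGroup N0] [AddCommGroup N1] [AddCommGroup N01]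
  [Module A N0] [Module A N1] [Module A N01]

/-- The canonical map `A' ⊗ H⁰(D, m) → H⁰(D.baseChange A', m)`. -/
noncomputable def H0BaseChangeMap (D : CechOps A N0 N1 N01) (m : ℕ) :
    A' ⊗[A] D.H0 m →ₗ[A'] (D.baseChange A').H0 m :=
  LinearMap.codRestrict _
    ((TensorProduct.prodRight A A' A' N0 N1).toLinearMap ∘ₗ (D.H0 m).subtype.baseChange A')
    (fun t => by
      have hz : D.d m ∘ₗ (D.H0 m).subtype = 0 :=
        LinearMap.ext fun x => LinearMap.mem_ker.mp x.2
      rw [LinearMap.mem_ker, LinearMap.comp_apply,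
        ← LinearMap.comp_apply ((D.baseChange A').d m), baseChange_d, ← LinearMap.comp_apply,
        ← LinearMap.baseChange_comp, hz, LinearMap.baseChange_zero, LinearMap.zero_apply])

theorem H0BaseChangeMap_coe (D : CechOps A N0 N1 N01) (m : ℕ) (t : A' ⊗[A] D.H0 m) :
    ((H0BaseChangeMap A' D m t : (D.baseChange A').H0 m) : (A' ⊗[A] N0) × (A' ⊗[A] N1)) =
      TensorProduct.prodRight A A' A' N0 N1 ((D.H0 m).subtype.baseChange A' t) := rfl

theorem H0BaseChangeMap_bijective (D : CechOps A N0 N1 N01)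
    (h0 : IsFGProj D.X0) (hr0 : Function.Injective D.r0) (m : ℕ)
    (hsurj : Function.Surjective (D.d m)) :
    Function.Bijective (H0BaseChangeMap A' D m) := by
  obtain ⟨hinj, hrange⟩ := H0_baseChange_bijective A' D h0 hr0 m hsurj
  constructor
  · intro x y hxy
    apply hinj
    apply (TensorProduct.prodRight A A' A' N0 N1).injective
    rw [← H0BaseChangeMap_coe, ← H0BaseChangeMap_coe, hxy]
  · intro x
    have hx : (TensorProduct.prodRight A A' A' N0 N1).symm (x : (A' ⊗[A] N0) × (A' ⊗[A] N1)) ∈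
        LinearMap.ker ((D.d m).baseChange A') := by
      rw [LinearMap.mem_ker, ← baseChange_d, LinearMap.comp_apply, LinearEquiv.coe_coe,
        LinearEquiv.apply_symm_apply]
      exact LinearMap.mem_ker.mp x.2
    rw [← hrange] at hx
    obtain ⟨t, ht⟩ := hx
    refine ⟨t, Subtype.ext ?_⟩
    rw [H0BaseChangeMap_coe, ht, LinearEquiv.apply_symm_apply]

/-- `A' ⊗ H⁰(D, m) ≃ₗ[A'] H⁰(D.baseChange A', m)` when `d m` is onto. -/
noncomputable def H0BaseChangeEquiv (D : CechOps A N0 N1 N01)
    (h0 : IsFGProj D.X0) (hr0 : Function.Injective D.r0) (m : ℕ)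
    (hsurj : Function.Surjective (D.d m)) :
    A' ⊗[A] D.H0 m ≃ₗ[A'] (D.baseChange A').H0 m :=
  LinearEquiv.ofBijective (H0BaseChangeMap A' D m) (H0BaseChangeMap_bijective A' D h0 hr0 m hsurj)

theorem range_baseChange_Y1_pow (D : CechOps A N0 N1 N01) (m : ℕ) :
    LinearMap.range ((D.baseChange A').Y1 ^ m) =
      LinearMap.range ((D.Y1 ^ m).baseChange A') := by
  show LinearMap.range ((D.Y1.baseChange A') ^ m) = _
  rw [baseChange_pow]

/-- `(A' ⊗ N1) ⧸ y^m ≃ₗ[A'] A' ⊗ (N1 ⧸ y^m)`. -/
noncomputable def quotY1BaseChangeEquiv (D : CechOps A N0 N1 N01) (m : ℕ) :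
    ((A' ⊗[A] N1) ⧸ LinearMap.range ((D.baseChange A').Y1 ^ m)) ≃ₗ[A']
      A' ⊗[A] (N1 ⧸ LinearMap.range (D.Y1 ^ m)) :=
  (Submodule.quotEquivOfEq _ _ (range_baseChange_Y1_pow A' D m)) ≪≫ₗ
    quotBaseChangeEquiv A' (D.Y1 ^ m)

/-- The comparison square for `δ`. -/
theorem quotY1BaseChangeEquiv_δ (D : CechOps A N0 N1 N01) (m : ℕ) (t : A' ⊗[A] D.H0 m) :
    quotY1BaseChangeEquiv A' D m ((D.baseChange A').δ m (H0BaseChangeMap A' D m t)) =
      (D.δ m).baseChange A' t := by
  induction t using TensorProduct.induction_on with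
  | zero => simp
  | tmul a p =>
    obtain ⟨⟨x, y⟩, hxy⟩ := p
    rfl
  | add x y hx hy => simp only [map_add, hx, hy]

/-- **K6, base-change part.** For every `m` with `d m` onto, the map
`δ m : H⁰(L(m∞)) → N1 / y^m N1` computes `H⁰` and `H¹` of the Čech complex after every base
change `A → A'`. -/
theorem finite_model_baseChange (D : CechOps A N0 N1 N01)
    (h0 : IsFGProj D.X0) (h1 : IsFGProj D.Y1) (hr0 : Function.Injective D.r0) (m : ℕ)
    (hsurj : Function.Surjective (D.d m)) :
    Nonempty (LinearMap.ker ((D.δ m).baseChange A') ≃ₗ[A']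
        LinearMap.ker ((D.d 0).baseChange A')) ∧
      Nonempty (((A' ⊗[A] (N1 ⧸ LinearMap.range (D.Y1 ^ m))) ⧸
          LinearMap.range ((D.δ m).baseChange A')) ≃ₗ[A']
        ((A' ⊗[A] N01) ⧸ LinearMap.range ((D.d 0).baseChange A'))) := by
  let α := H0BaseChangeEquiv A' D h0 hr0 m hsurj
  let β := quotY1BaseChangeEquiv A' D m
  let e := TensorProduct.prodRight A A' A' N0 N1
  have hsq : ∀ t, β ((D.baseChange A').δ m (α t)) = (D.δ m).baseChange A' t :=
    quotY1BaseChangeEquiv_δ A' D m
  have hY1' : Function.Injective (D.baseChange A').Y1 :=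
    injective_of_isFGProj (isFGProj_baseChange A' h1)
  have hsurj' : Function.Surjective ((D.baseChange A').d m) := by
    intro z
    obtain ⟨t, ht⟩ := baseChange_surjective' A' (D.d m) hsurj z
    refine ⟨e t, ?_⟩
    rw [← ht, ← baseChange_d]
    rfl
  constructor
  · -- kernels
    have k1 : LinearMap.ker ((D.δ m).baseChange A') =
        (LinearMap.ker ((D.baseChange A').δ m)).comap α.toLinearMap := by
      ext t
      rw [Submodule.mem_comap, LinearMap.mem_ker, LinearMap.mem_ker, ← hsq,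
        LinearEquiv.map_eq_zero_iff]
      rfl
    have k3 : LinearMap.ker ((D.d 0).baseChange A') =
        (LinearMap.ker ((D.baseChange A').d 0)).comap e.toLinearMap := by
      rw [← baseChange_d, LinearMap.ker_comp]
    exact ⟨(LinearEquiv.ofEq _ _ k1 ≪≫ₗ
        α.ofSubmodule' (LinearMap.ker ((D.baseChange A').δ m))) ≪≫ₗ
      (LinearEquiv.ofInjective ((D.baseChange A').incl m)
          (incl_injective (D.baseChange A') hY1' m) ≪≫ₗ
        LinearEquiv.ofEq _ _ (range_incl_eq_ker_δ (D.baseChange A') m)).symm ≪≫ₗ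
      (LinearEquiv.ofEq _ _ k3 ≪≫ₗ
        e.ofSubmodule' (LinearMap.ker ((D.baseChange A').d 0))).symm⟩
  · -- cokernels
    have c1 : (LinearMap.range ((D.δ m).baseChange A')).map β.symm.toLinearMap =
        LinearMap.range ((D.baseChange A').δ m) := by
      ext z
      constructor
      · rintro ⟨_, ⟨t, rfl⟩, rfl⟩
        refine ⟨α t, ?_⟩
        rw [← hsq]
        exact (β.symm_apply_apply _).symm
      · rintro ⟨x, rfl⟩
        obtain ⟨t, rfl⟩ := α.surjective x
        refine ⟨(D.δ m).baseChange A' t, ⟨t, rfl⟩, ?_⟩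
        rw [← hsq]
        exact β.symm_apply_apply _
    have c3 : LinearMap.range ((D.baseChange A').d 0) =
        LinearMap.range ((D.d 0).baseChange A') := by
      rw [← baseChange_d, LinearMap.range_comp, LinearEquiv.range, Submodule.map_top]
    exact ⟨Submodule.Quotient.equiv _ _ β.symm c1 ≪≫ₗ
      (Submodule.quotEquivOfEq _ _ (range_δ_eq_ker_conn (D.baseChange A') m) ≪≫ₗ
        ((D.baseChange A').conn m).quotKerEquivOfSurjective
          (conn_surjective (D.baseChange A') m hsurj')) ≪≫ₗ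
      Submodule.quotEquivOfEq _ _ c3⟩

end BaseChange

variable {N0 N1 N01 : Type v}
  [AddCommGroup N0] [AddCommGroup N1] [AddCommGroup N01]
  [Module A N0] [Module A N1] [Module A N01]

/-- **K6 (finite model)**, from the conclusions of K2, K1 and K0e. -/
theorem exists_finite_model_of (D : CechOps A N0 N1 N01)
    (h0 : IsFGProj D.X0) (h1 : IsFGProj D.Y1)
    (hr0 : Function.Injective D.r0)
    (hK2 : ∃ m0 : ℕ, ∀ m, m0 ≤ m → Function.Surjective (D.d m))
    (hK1 : ∀ m, Function.Surjective (D.d m) →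
      Module.Finite A (D.H0 m) ∧ Module.Projective A (D.H0 m))
    (hK0e : ∀ m, Module.Finite A (N1 ⧸ LinearMap.range (D.Y1 ^ m)) ∧
      Module.Projective A (N1 ⧸ LinearMap.range (D.Y1 ^ m))) :
    ∃ m : ℕ, Function.Surjective (D.d m) ∧
      Module.Finite A (D.H0 m) ∧ Module.Projective A (D.H0 m) ∧
      Module.Finite A (N1 ⧸ LinearMap.range (D.Y1 ^ m)) ∧
      Module.Projective A (N1 ⧸ LinearMap.range (D.Y1 ^ m)) ∧
      ∀ (A' : Type (max u v)) [CommRing A'] [Algebra A A'],
        Nonempty (LinearMap.ker ((D.δ m).baseChange A') ≃ₗ[A']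
          LinearMap.ker ((D.d 0).baseChange A')) ∧
        Nonempty (((A' ⊗[A] (N1 ⧸ LinearMap.range (D.Y1 ^ m))) ⧸
            LinearMap.range ((D.δ m).baseChange A')) ≃ₗ[A']
          ((A' ⊗[A] N01) ⧸ LinearMap.range ((D.d 0).baseChange A'))) := by
  obtain ⟨m0, hm0⟩ := hK2
  have hs := hm0 m0 le_rfl
  exact ⟨m0, hs, (hK1 m0 hs).1, (hK1 m0 hs).2, (hK0e m0).1, (hK0e m0).2,
    fun A' _ _ => finite_model_baseChange A' D h0 h1 hr0 m0 hs⟩

end Fermat.Agent.S25.H370
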