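/-
S25, block DEGREE (squad S25/S10), leaf D8 (helper370): families.
Exact statements of `H10/DegreeSkel.lean` (origin/helper10):

* `cech_surjective_of_fibres` (D8-a): vanishing of `Ȟ¹` can be tested on the fibres;
* `H0_finite_projective`      (D8-b): `Ȟ¹ = 0` ⇒ `Ȟ⁰` finitely generated projective;
* `cech_surjective_of_isBC`   (D8-c): `Ȟ¹ = 0` is stable under base change;
* `mapH0_isBaseChange`        (D8-c'): if `Ȟ¹ = 0`, then `Ȟ⁰` commutes with every base change;
* `exists_uniform_vanishing_family_of` (D8-d, from D7 as a hypothesis).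
-/
import Fermat.Agent.S25.H10.DegreeDefs
import Fermat.Agent.S25.H10.K1
import Fermat.Agent.S25.H250.DegreeD1
import Fermat.Agent.S25.H310.DegreeInvariance
import Fermat.Agent.S25.H971.GlueBC
import Fermat.Agent.S25.H370.CechK5

set_option autoImplicit false
set_option linter.unusedVariables false

universe u

open scoped TensorProduct

namespace Fermat.Agent.S25.H370

open Fermat.Agent.S25 Fermat.Agent.S25.H10

variable {k : Type u} [Field k] {B₀ B₁ B₀₁ : Type u} [CommRing B₀] [CommRing B₁] [CommRing B₀₁]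
  [Algebra k B₀] [Algebra k B₁] [Algebra k B₀₁] [Algebra B₀ B₀₁] [Algebra B₁ B₀₁]
  [IsScalarTower k B₀ B₀₁] [IsScalarTower k B₁ B₀₁]
  {x : B₀} {y : B₁} {e : B₁ →ₐ[k] k}

/-- D8-b. If `Ȟ¹ = 0` then `Ȟ⁰` is finitely generated projective (K1). -/
theorem H0_finite_projective (hC : IsCurveChart k B₀ B₁ B₀₁ x y e) {A : Type u}
    [CommRing A] [Algebra k A] (G : CurveGD k B₀ B₁ B₀₁ A) (h : Function.Surjective G.cech) :
    Module.Finite A G.H0 ∧ Module.Projective A G.H0 := by
  have hd := H250.chartCechOps_d_zero hC G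
  have hs : Function.Surjective ((H250.chartCechOps hC G).d 0) := by
    rw [hd]
    exact h
  have hb : ∃ M : Submodule A (G.N₀ × G.N₁), M.FG ∧ (H250.chartCechOps hC G).H0 0 ≤ M := by
    obtain ⟨M, hM, hle⟩ := H250.exists_fg_ge_H0_curve hC G
    exact ⟨M, hM, by rw [H250.chartCechOps_H0_zero hC G]; exact hle⟩
  have key := (H10.H0_finite_projective_of_surjective_of_bound (H250.chartCechOps hC G)
    (H250.isFGProj_X0 hC G) (H250.isFGProj_Y1 hC G) (H250.r0_injective hC G) 0 hb hs).2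
  rw [H250.chartCechOps_H0_zero hC G] at key
  exact key

/-- D8-c. If `Ȟ¹ = 0` then `Ȟ¹` of every base change vanishes. -/
theorem cech_surjective_of_isBC (hC : IsCurveChart k B₀ B₁ B₀₁ x y e) {A A' : Type u}
    [CommRing A] [Algebra k A] [CommRing A'] [Algebra k A'] (φ : A →ₐ[k] A')
    {G : CurveGD k B₀ B₁ B₀₁ A} {G' : CurveGD k B₀ B₁ B₀₁ A'} (h : CurveGD.IsBC φ G G')
    (hs : Function.Surjective G.cech) : Function.Surjective G'.cech := by
  let _ : Algebra A A' := φ.toRingHom.toAlgebra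
  have : IsScalarTower k A A' := IsScalarTower.of_algebraMap_eq' φ.comp_algebraMap.symm
  have hφ : IsScalarTower.toAlgHom k A A' = φ := AlgHom.ext fun _ => rfl
  rw [← hφ] at h
  obtain ⟨bm⟩ := h
  exact H310.BCMaps.cech_surjective bm hs

/-- D8-a. Vanishing of `Ȟ¹` can be tested on the fibres (E1 + Nakayama + right exactness). -/
theorem cech_surjective_of_fibres (hC : IsCurveChart k B₀ B₁ B₀₁ x y e) {A : Type u}
    [CommRing A] [Algebra k A] (G : CurveGD k B₀ B₁ B₀₁ A)
    (h : ∀ (K : Type u) [Field K] [Algebra k K] (φ : A →ₐ[k] K)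
      (G' : CurveGD k B₀ B₁ B₀₁ K), CurveGD.IsBC φ G G' → Function.Surjective G'.cech) :
    Function.Surjective G.cech := by
  have hfin : Module.Finite A G.H1 := H250.finite_H1 hC G
  have hsub : Subsingleton G.H1 := by
    rw [← Module.support_eq_empty_iff (R := A), Set.eq_empty_iff_forall_notMem]
    intro p hp
    rw [Module.mem_support_iff_nontrivial_residueField_tensorProduct] at hp
    obtain ⟨G', hG'⟩ := H971.exists_curveGD_baseChange B₀ B₁ B₀₁
      (IsScalarTower.toAlgHom k A p.asIdeal.ResidueField) G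
    have hs := h p.asIdeal.ResidueField (IsScalarTower.toAlgHom k A p.asIdeal.ResidueField)
      G' hG'
    obtain ⟨bm⟩ := hG'
    have e := H310.BCMaps.H1Equiv bm
    have hsub' : Subsingleton G'.H1 :=
      Submodule.Quotient.subsingleton_iff.mpr (LinearMap.range_eq_top.mpr hs)
    exact not_subsingleton _ e.toEquiv.subsingleton
  rw [← LinearMap.range_eq_top]
  exact Submodule.Quotient.subsingleton_iff.mp hsub

/-- A surjective Čech differential has an `A`-linear section. -/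
theorem exists_section_cech (hC : IsCurveChart k B₀ B₁ B₀₁ x y e) {A : Type u}
    [CommRing A] [Algebra k A] (G : CurveGD k B₀ B₁ B₀₁ A) (h : Function.Surjective G.cech) :
    ∃ s : G.N₀₁ →ₗ[A] G.N₀ × G.N₁, G.cech ∘ₗ s = LinearMap.id := by
  have hd := H250.chartCechOps_d_zero hC G
  have hs : Function.Surjective ((H250.chartCechOps hC G).d 0) := by
    rw [hd]
    exact h
  obtain ⟨s, hs'⟩ := exists_section_d (H250.chartCechOps hC G) (H250.isFGProj_X0 hC G)
    (H250.r0_injective hC G) 0 hs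
  exact ⟨s, by rw [← hd]; exact hs'⟩

section MapH0

variable {A A' : Type u} [CommRing A] [Algebra k A] [CommRing A'] [Algebra k A']
  [Algebra A A'] [IsScalarTower k A A']
  {G : CurveGD k B₀ B₁ B₀₁ A} {G' : CurveGD k B₀ B₁ B₀₁ A'}

/-- If `Ȟ¹(G) = 0`, then `A' ⊗[A] Ȟ⁰(G) ≃ Ȟ⁰(G')` for every base change `G'` of `G`. -/
theorem exists_H0_baseChange_equiv (hC : IsCurveChart k B₀ B₁ B₀₁ x y e)
    (bm : H310.BCMaps G G') (hs : Function.Surjective G.cech) :
    ∃ Ψ : A' ⊗[A] G.H0 ≃ₗ[A'] G'.H0, ∀ (a : A') (s : G.H0),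
      ((Ψ (a ⊗ₜ[A] s) : G'.H0) : G'.N₀ × G'.N₁) = (a • bm.b₀ s.1.1, a • bm.b₁ s.1.2) := by
  obtain ⟨sec, hsec⟩ := exists_section_cech hC G hs
  obtain ⟨hinj, hrange⟩ := ker_baseChange_of_section A' G.cech sec hsec
  -- `A' ⊗ Ȟ⁰(G) ≃ ker (A' ⊗ cech)`
  let Φ₀ : A' ⊗[A] G.H0 →ₗ[A'] LinearMap.ker (G.cech.baseChange A') :=
    LinearMap.codRestrict _ ((LinearMap.ker G.cech).subtype.baseChange A') (fun z => by
      rw [← hrange]
      exact ⟨z, rfl⟩)
  have hΦ₀ : Function.Bijective Φ₀ := by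
    constructor
    · intro a b hab
      exact hinj (congrArg Subtype.val hab)
    · rintro ⟨z, hz⟩
      rw [← hrange] at hz
      obtain ⟨w, hw⟩ := hz
      exact ⟨w, Subtype.ext hw⟩
  refine ⟨LinearEquiv.ofBijective Φ₀ hΦ₀ ≪≫ₗ bm.kerEquiv, fun a s => ?_⟩
  show bm.equivProd ((LinearMap.ker G.cech).subtype.baseChange A' (a ⊗ₜ[A] s)) = _
  rw [LinearMap.baseChange_tmul, H310.BCMaps.equivProd_tmul]
  rfl

end MapH0

/-- D8-c'. If `Ȟ¹ = 0` then `Ȟ⁰` commutes with every base change (K5). -/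
theorem mapH0_isBaseChange (hC : IsCurveChart k B₀ B₁ B₀₁ x y e) {A A' : Type u}
    [CommRing A] [Algebra k A] [CommRing A'] [Algebra k A'] (φ : A →ₐ[k] A')
    {G : CurveGD k B₀ B₁ B₀₁ A} {G' : CurveGD k B₀ B₁ B₀₁ A'}
    (bc : GlueDatum.BaseChangeMaps (tensorMapLeft k φ B₀) (tensorMapLeft k φ B₁)
      (tensorMapLeft k φ B₀₁) G G') (hs : Function.Surjective G.cech) :
    IsSemilinearBaseChange φ.toRingHom (mapH0 φ bc) := by
  unfold IsSemilinearBaseChange
  letI : Algebra A A' := φ.toRingHom.toAlgebra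
  have : IsScalarTower k A A' := IsScalarTower.of_algebraMap_eq' φ.comp_algebraMap.symm
  let bm : H310.BCMaps G G' := bc
  obtain ⟨Ψ, hΨ⟩ := exists_H0_baseChange_equiv hC bm hs
  letI : Module A G'.H0 := Module.compHom G'.H0 φ.toRingHom
  haveI : IsScalarTower A A' G'.H0 := ⟨fun r r' n => by
    change (φ.toRingHom r * r') • n = φ.toRingHom r • (r' • n)
    rw [mul_smul]⟩
  refine IsBaseChange.of_equiv Ψ (fun s => ?_)
  apply Subtype.ext
  rw [hΨ, one_smul, one_smul]
  rfl

/-- D8-d. Uniform vanishing in families, from uniform vanishing over fields (D7, taken as a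
hypothesis): fibrewise degree `≥ n₀` kills `Ȟ¹`, and `Ȟ⁰` is finitely generated projective. -/
theorem exists_uniform_vanishing_family_of (hC : IsCurveChart k B₀ B₁ B₀₁ x y e)
    (hD7 : ∃ n₀ : ℤ, ∀ (K : Type u) [Field K] [Algebra k K] (G : CurveGD k B₀ B₁ B₀₁ K),
      n₀ ≤ G.degree → Function.Surjective G.cech) :
    ∃ n₀ : ℤ, ∀ (A : Type u) [CommRing A] [Algebra k A] (G : CurveGD k B₀ B₁ B₀₁ A),
      (∀ (K : Type u) [Field K] [Algebra k K] (φ : A →ₐ[k] K) (G' : CurveGD k B₀ B₁ B₀₁ K),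
        CurveGD.IsBC φ G G' → n₀ ≤ G'.degree) →
      Function.Surjective G.cech ∧ Module.Finite A G.H0 ∧ Module.Projective A G.H0 := by
  obtain ⟨n₀, h⟩ := hD7
  refine ⟨n₀, fun A _ _ G hG => ?_⟩
  have hs := cech_surjective_of_fibres hC G (fun K _ _ φ G' hBC => h K G' (hG K φ G' hBC))
  exact ⟨hs, H0_finite_projective hC G hs⟩

end Fermat.Agent.S25.H370
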