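import Mathlib

/-!
# S25 / block CECH / route step A4 (helper370): additivity of the Euler characteristic
# (Fredholm index) of two-term complexes over a field

A two-term complex is just a linear map `d : M⁰ → M¹`; `H⁰ = ker d`, `H¹ = M¹ ⧸ range d`.
Given a short exact sequence of two-term complexes

```
0 → M'⁰ --i0--> M⁰ --p0--> M''⁰ → 0
     |d'         |d          |d''
0 → M'¹ --i1--> M¹ --p1--> M''¹ → 0
```

over a field `K` we prove:

* `finite_H0_of_ses`, `finite_H1_of_ses`: if the outer complexes have finite-dimensional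
  cohomology, so does the middle one;
* `eulerChar_of_ses`: `χ(d) = χ(d') + χ(d'')`, where `χ = dim H⁰ - dim H¹ : ℤ`.

The modules themselves are arbitrary (infinite-dimensional in the application: Čech complexes of a
two-chart cover of a curve).
-/

set_option autoImplicit false

namespace Fermat.Agent.S25.H370

open Module

universe u

variable {K : Type*} [Field K]

/-- The Euler characteristic `dim ker d - dim coker d` of a linear map. -/
noncomputable def eulerChar {M0 M1 : Type*} [AddCommGroup M0] [Module K M0] [AddCommGroup M1]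
    [Module K M1] (d : M0 →ₗ[K] M1) : ℤ :=
  (finrank K (LinearMap.ker d) : ℤ) - (finrank K (M1 ⧸ LinearMap.range d) : ℤ)

section SES

variable {A0 A1 B0 B1 C0 C1 : Type*}
  [AddCommGroup A0] [Module K A0] [AddCommGroup A1] [Module K A1]
  [AddCommGroup B0] [Module K B0] [AddCommGroup B1] [Module K B1]
  [AddCommGroup C0] [Module K C0] [AddCommGroup C1] [Module K C1]

/-- A short exact sequence of two-term complexes. -/
structure TwoTermSES (dA : A0 →ₗ[K] A1) (dB : B0 →ₗ[K] B1) (dC : C0 →ₗ[K] C1)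
    (i0 : A0 →ₗ[K] B0) (p0 : B0 →ₗ[K] C0) (i1 : A1 →ₗ[K] B1) (p1 : B1 →ₗ[K] C1) : Prop where
  comm_i : ∀ a, i1 (dA a) = dB (i0 a)
  comm_p : ∀ b, p1 (dB b) = dC (p0 b)
  inj0 : Function.Injective i0
  exact0 : ∀ b, p0 b = 0 ↔ ∃ a, i0 a = b
  surj0 : Function.Surjective p0
  inj1 : Function.Injective i1
  exact1 : ∀ b, p1 b = 0 ↔ ∃ a, i1 a = b
  surj1 : Function.Surjective p1


namespace TwoTermSES

variable {dA : A0 →ₗ[K] A1} {dB : B0 →ₗ[K] B1} {dC : C0 →ₗ[K] C1}
  {i0 : A0 →ₗ[K] B0} {p0 : B0 →ₗ[K] C0} {i1 : A1 →ₗ[K] B1} {p1 : B1 →ₗ[K] C1}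

theorem p0_i0 (h : TwoTermSES dA dB dC i0 p0 i1 p1) (a : A0) : p0 (i0 a) = 0 :=
  (h.exact0 _).mpr ⟨a, rfl⟩

theorem p1_i1 (h : TwoTermSES dA dB dC i0 p0 i1 p1) (a : A1) : p1 (i1 a) = 0 :=
  (h.exact1 _).mpr ⟨a, rfl⟩

/-- `H⁰(A) → H⁰(B)`. -/
def mapA (h : TwoTermSES dA dB dC i0 p0 i1 p1) : LinearMap.ker dA →ₗ[K] LinearMap.ker dB :=
  i0.restrict (fun a ha => by
    rw [LinearMap.mem_ker] at ha ⊢
    rw [← h.comm_i, ha, map_zero])

/-- `H⁰(B) → H⁰(C)`. -/
def mapB (h : TwoTermSES dA dB dC i0 p0 i1 p1) : LinearMap.ker dB →ₗ[K] LinearMap.ker dC :=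
  p0.restrict (fun b hb => by
    rw [LinearMap.mem_ker] at hb ⊢
    rw [← h.comm_p, hb, map_zero])

/-- `H¹(A) → H¹(B)`. -/
def mapC (h : TwoTermSES dA dB dC i0 p0 i1 p1) :
    (A1 ⧸ LinearMap.range dA) →ₗ[K] (B1 ⧸ LinearMap.range dB) :=
  Submodule.mapQ _ _ i1 (by
    rintro _ ⟨a, rfl⟩
    exact ⟨i0 a, (h.comm_i a).symm⟩)

/-- `H¹(B) → H¹(C)`. -/
def mapE (h : TwoTermSES dA dB dC i0 p0 i1 p1) :
    (B1 ⧸ LinearMap.range dB) →ₗ[K] (C1 ⧸ LinearMap.range dC) :=
  Submodule.mapQ _ _ p1 (by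
    rintro _ ⟨b, rfl⟩
    exact ⟨p0 b, (h.comm_p b).symm⟩)

theorem mapA_injective (h : TwoTermSES dA dB dC i0 p0 i1 p1) : Function.Injective h.mapA := by
  intro x y hxy
  apply Subtype.ext
  apply h.inj0
  exact congrArg Subtype.val hxy

theorem mapE_surjective (h : TwoTermSES dA dB dC i0 p0 i1 p1) : Function.Surjective h.mapE := by
  intro q
  obtain ⟨c, rfl⟩ := Submodule.mkQ_surjective _ q
  obtain ⟨b, rfl⟩ := h.surj1 c
  exact ⟨Submodule.Quotient.mk b, rfl⟩

theorem ker_mapB (h : TwoTermSES dA dB dC i0 p0 i1 p1) :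
    LinearMap.ker h.mapB = LinearMap.range h.mapA := by
  ext z
  constructor
  · intro hz
    rw [LinearMap.mem_ker] at hz
    have hz' : p0 (z : B0) = 0 := congrArg Subtype.val hz
    obtain ⟨w, hw⟩ := (h.exact0 _).mp hz'
    have hwk : w ∈ LinearMap.ker dA := by
      rw [LinearMap.mem_ker]
      apply h.inj1
      rw [h.comm_i, hw, map_zero]
      exact LinearMap.mem_ker.mp z.2
    exact ⟨⟨w, hwk⟩, Subtype.ext hw⟩
  · rintro ⟨w, rfl⟩
    rw [LinearMap.mem_ker]
    apply Subtype.ext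
    exact h.p0_i0 w

theorem ker_mapE (h : TwoTermSES dA dB dC i0 p0 i1 p1) :
    LinearMap.ker h.mapE = LinearMap.range h.mapC := by
  ext q
  obtain ⟨b1, rfl⟩ := Submodule.mkQ_surjective _ q
  constructor
  · intro hq
    rw [LinearMap.mem_ker] at hq
    have hq' : p1 b1 ∈ LinearMap.range dC := by
      have : (Submodule.Quotient.mk (p1 b1) : C1 ⧸ LinearMap.range dC) = 0 := hq
      exact (Submodule.Quotient.mk_eq_zero _).mp this
    obtain ⟨x, hx⟩ := hq'
    obtain ⟨z, rfl⟩ := h.surj0 x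
    have h1 : p1 (b1 - dB z) = 0 := by rw [map_sub, h.comm_p, hx, sub_self]
    obtain ⟨y, hy⟩ := (h.exact1 _).mp h1
    refine ⟨Submodule.Quotient.mk y, ?_⟩
    show (Submodule.Quotient.mk (i1 y) : B1 ⧸ LinearMap.range dB) = Submodule.Quotient.mk b1
    rw [hy, Submodule.Quotient.mk_sub, sub_eq_self, Submodule.Quotient.mk_eq_zero]
    exact ⟨z, rfl⟩
  · rintro ⟨q, hq⟩
    obtain ⟨y, rfl⟩ := Submodule.mkQ_surjective _ q
    rw [LinearMap.mem_ker, ← hq]
    show (Submodule.Quotient.mk (p1 (i1 y)) : C1 ⧸ LinearMap.range dC) = 0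
    rw [h.p1_i1, Submodule.Quotient.mk_zero]

/-- The connecting homomorphism `H⁰(C) → H¹(A)` with both exactness statements. -/
theorem exists_conn (h : TwoTermSES dA dB dC i0 p0 i1 p1) :
    ∃ δ : LinearMap.ker dC →ₗ[K] (A1 ⧸ LinearMap.range dA),
      LinearMap.ker δ = LinearMap.range h.mapB ∧ LinearMap.range δ = LinearMap.ker h.mapC := by
  obtain ⟨s, hs⟩ := LinearMap.exists_rightInverse_of_surjective p0
    (LinearMap.range_eq_top.mpr h.surj0)
  obtain ⟨r, hr⟩ := LinearMap.exists_leftInverse_of_injective i1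
    (LinearMap.ker_eq_bot.mpr h.inj1)
  have hs' : ∀ c, p0 (s c) = c := fun c => by
    rw [← LinearMap.comp_apply, hs, LinearMap.id_apply]
  have hr' : ∀ a, r (i1 a) = a := fun a => by
    rw [← LinearMap.comp_apply, hr, LinearMap.id_apply]
  refine ⟨(LinearMap.range dA).mkQ ∘ₗ r ∘ₗ dB ∘ₗ s ∘ₗ (LinearMap.ker dC).subtype, ?_, ?_⟩
  · ext c
    constructor
    · intro hc
      rw [LinearMap.mem_ker] at hc
      have hc' : r (dB (s (c : C0))) ∈ LinearMap.range dA :=
        (Submodule.Quotient.mk_eq_zero _).mp hc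
      obtain ⟨a0, ha0⟩ := hc'
      -- `dB (s c)` lies in the image of `i1`
      have h1 : p1 (dB (s (c : C0))) = 0 := by
        rw [h.comm_p, hs']
        exact LinearMap.mem_ker.mp c.2
      obtain ⟨a, ha⟩ := (h.exact1 _).mp h1
      have h2 : r (dB (s (c : C0))) = a := by rw [← ha, hr']
      have hb : s (c : C0) - i0 a0 ∈ LinearMap.ker dB := by
        rw [LinearMap.mem_ker, map_sub, ← h.comm_i, ha0, h2, ha, sub_self]
      refine ⟨⟨_, hb⟩, Subtype.ext ?_⟩
      show p0 (s (c : C0) - i0 a0) = c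
      rw [map_sub, hs', h.p0_i0, sub_zero]
    · rintro ⟨b, rfl⟩
      rw [LinearMap.mem_ker]
      show (Submodule.Quotient.mk (r (dB (s (p0 (b : B0))))) : A1 ⧸ LinearMap.range dA) = 0
      rw [Submodule.Quotient.mk_eq_zero]
      have h1 : p0 (s (p0 (b : B0)) - b) = 0 := by rw [map_sub, hs', sub_self]
      obtain ⟨a0, ha0⟩ := (h.exact0 _).mp h1
      refine ⟨a0, ?_⟩
      have h2 : dB (s (p0 (b : B0))) = i1 (dA a0) := by
        rw [h.comm_i, ha0, map_sub, LinearMap.mem_ker.mp b.2, sub_zero]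
      rw [h2, hr']
  · ext q
    obtain ⟨a, rfl⟩ := Submodule.mkQ_surjective _ q
    constructor
    · rintro ⟨c, hc⟩
      rw [LinearMap.mem_ker, ← hc]
      show (Submodule.Quotient.mk (i1 (r (dB (s (c : C0))))) : B1 ⧸ LinearMap.range dB) = 0
      have h1 : p1 (dB (s (c : C0))) = 0 := by
        rw [h.comm_p, hs']
        exact LinearMap.mem_ker.mp c.2
      obtain ⟨a', ha'⟩ := (h.exact1 _).mp h1
      rw [← ha', hr', ha', Submodule.Quotient.mk_eq_zero]
      exact ⟨_, rfl⟩
    · intro hq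
      rw [LinearMap.mem_ker] at hq
      have hq' : i1 a ∈ LinearMap.range dB := (Submodule.Quotient.mk_eq_zero _).mp hq
      obtain ⟨b, hb⟩ := hq'
      have hc : p0 b ∈ LinearMap.ker dC := by
        rw [LinearMap.mem_ker, ← h.comm_p, hb, h.p1_i1]
      refine ⟨⟨p0 b, hc⟩, ?_⟩
      show (Submodule.Quotient.mk (r (dB (s (p0 b)))) : A1 ⧸ LinearMap.range dA) =
        Submodule.Quotient.mk a
      have h1 : p0 (s (p0 b) - b) = 0 := by rw [map_sub, hs', sub_self]
      obtain ⟨a0, ha0⟩ := (h.exact0 _).mp h1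
      have h2 : dB (s (p0 b)) = i1 (dA a0 + a) := by
        rw [map_add, h.comm_i, ha0, map_sub, hb]
        abel
      rw [h2, hr', Submodule.Quotient.mk_add, add_eq_right, Submodule.Quotient.mk_eq_zero]
      exact ⟨a0, rfl⟩

end TwoTermSES

theorem finite_of_finite_ker_range {V : Type*} {W : Type*} [AddCommGroup V] [Module K V]
    [AddCommGroup W] [Module K W] (f : V →ₗ[K] W) (h1 : Module.Finite K (LinearMap.ker f))
    (h2 : Module.Finite K (LinearMap.range f)) : Module.Finite K V := by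
  have : Module.Finite K (V ⧸ LinearMap.ker f) :=
    Module.Finite.equiv f.quotKerEquivRange.symm
  exact Module.Finite.of_submodule_quotient (LinearMap.ker f)

namespace TwoTermSES

variable {dA : A0 →ₗ[K] A1} {dB : B0 →ₗ[K] B1} {dC : C0 →ₗ[K] C1}
  {i0 : A0 →ₗ[K] B0} {p0 : B0 →ₗ[K] C0} {i1 : A1 →ₗ[K] B1} {p1 : B1 →ₗ[K] C1}

/-- `H⁰` of the middle complex is finite-dimensional if the outer ones are. -/
theorem finite_H0 (h : TwoTermSES dA dB dC i0 p0 i1 p1)
    [Module.Finite K (LinearMap.ker dA)] [Module.Finite K (LinearMap.ker dC)] :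
    Module.Finite K (LinearMap.ker dB) := by
  apply finite_of_finite_ker_range h.mapB
  · rw [h.ker_mapB]
    exact Module.Finite.range h.mapA
  · infer_instance

/-- `H¹` of the middle complex is finite-dimensional if the outer ones are. -/
theorem finite_H1 (h : TwoTermSES dA dB dC i0 p0 i1 p1)
    [Module.Finite K (A1 ⧸ LinearMap.range dA)] [Module.Finite K (C1 ⧸ LinearMap.range dC)] :
    Module.Finite K (B1 ⧸ LinearMap.range dB) := by
  apply finite_of_finite_ker_range h.mapE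
  · rw [h.ker_mapE]
    exact Module.Finite.range h.mapC
  · infer_instance

/-- If `H¹` of the quotient complex vanishes, `H¹(A) → H¹(B)` is onto. -/
theorem mapC_surjective (h : TwoTermSES dA dB dC i0 p0 i1 p1)
    (hC : Function.Surjective dC) : Function.Surjective h.mapC := by
  rw [← LinearMap.range_eq_top, ← h.ker_mapE, LinearMap.ker_eq_top]
  refine LinearMap.ext fun q => ?_
  obtain ⟨b, rfl⟩ := Submodule.mkQ_surjective _ q
  show (Submodule.Quotient.mk (p1 b) : C1 ⧸ LinearMap.range dC) = 0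
  rw [Submodule.Quotient.mk_eq_zero]
  exact hC (p1 b)

/-- **Additivity of the Euler characteristic.** -/
theorem eulerChar_eq (h : TwoTermSES dA dB dC i0 p0 i1 p1)
    [Module.Finite K (LinearMap.ker dA)] [Module.Finite K (LinearMap.ker dC)]
    [Module.Finite K (A1 ⧸ LinearMap.range dA)] [Module.Finite K (C1 ⧸ LinearMap.range dC)] :
    eulerChar dB = eulerChar dA + eulerChar dC := by
  have hB0 := h.finite_H0
  have hB1 := h.finite_H1
  obtain ⟨δ, hδ1, hδ2⟩ := h.exists_conn
  have e1 := LinearMap.finrank_range_add_finrank_ker h.mapB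
  have e2 := LinearMap.finrank_range_add_finrank_ker δ
  have e3 := LinearMap.finrank_range_add_finrank_ker h.mapC
  have e4 := LinearMap.finrank_range_add_finrank_ker h.mapE
  have e5 : finrank K (LinearMap.range h.mapA) = finrank K (LinearMap.ker dA) :=
    LinearMap.finrank_range_of_inj h.mapA_injective
  have e6 : finrank K (LinearMap.range h.mapE) = finrank K (C1 ⧸ LinearMap.range dC) := by
    rw [LinearMap.range_eq_top.mpr h.mapE_surjective, finrank_top]
  rw [h.ker_mapB, e5] at e1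
  rw [hδ1, hδ2] at e2
  rw [h.ker_mapE, e6] at e4
  unfold eulerChar
  omega

end TwoTermSES

/-- The Euler characteristic of a map between finite-dimensional spaces. -/
theorem eulerChar_of_finite {M0 : Type*} {M1 : Type*} [AddCommGroup M0] [Module K M0]
    [AddCommGroup M1] [Module K M1] [Module.Finite K M0] [Module.Finite K M1]
    (d : M0 →ₗ[K] M1) :
    eulerChar d = (finrank K M0 : ℤ) - (finrank K M1 : ℤ) := by
  have e1 := LinearMap.finrank_range_add_finrank_ker d
  have e2 := Submodule.finrank_quotient_add_finrank (LinearMap.range d)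
  unfold eulerChar
  omega

end SES

end Fermat.Agent.S25.H370
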