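/-
S25 / DEGREE D3 + D5 (helper370): morphisms of gluing data over a field.

For gluing data `G, G'` over a field `K` (frozen `GlueDatum` of `DefsAlg.lean`) and a morphism
`φ : GDHom G G'` we build the short exact sequence of Čech complexes
`0 → Č(G) → Č(G') → Č(Q) → 0`, `Q = coker φ`, and prove
`χ(G') = χ(G) + dim Q₀ + dim Q₁ - dim Q₀₁` (`GDHom.euler_eq`).
-/
import Fermat.Agent.S25.DefsAlg
import Fermat.Agent.S25.H370.EulerChar
import Fermat.Agent.S25.H370.InvertibleDomain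

set_option autoImplicit false

namespace Fermat.Agent.S25.H370

open Fermat.Agent.S25 Module

universe u

section Hom

variable {A R₀ R₁ R₀₁ : Type u} [CommRing A] [CommRing R₀] [CommRing R₁]
    [CommRing R₀₁] [Algebra A R₀] [Algebra A R₁] [Algebra A R₀₁] [Algebra R₀ R₀₁]
    [Algebra R₁ R₀₁] [IsScalarTower A R₀ R₀₁] [IsScalarTower A R₁ R₀₁]

/-- A morphism of gluing data: compatible linear maps. -/
structure GDHom (G G' : GlueDatum A R₀ R₁ R₀₁) where
  φ₀ : G.N₀ →ₗ[R₀] G'.N₀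
  φ₁ : G.N₁ →ₗ[R₁] G'.N₁
  φ₀₁ : G.N₀₁ →ₗ[R₀₁] G'.N₀₁
  comm₀ : ∀ s, φ₀₁ (G.r₀ s) = G'.r₀ (φ₀ s)
  comm₁ : ∀ s, φ₀₁ (G.r₁ s) = G'.r₁ (φ₁ s)

namespace GDHom

variable {G G' : GlueDatum A R₀ R₁ R₀₁} (φ : GDHom G G')

/-- The three cokernels, as `A`-modules. -/
abbrev Q₀ : Type u := G'.N₀ ⧸ LinearMap.range (φ.φ₀.restrictScalars A)
/-- The three cokernels, as `A`-modules. -/
abbrev Q₁ : Type u := G'.N₁ ⧸ LinearMap.range (φ.φ₁.restrictScalars A)
/-- The three cokernels, as `A`-modules. -/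
abbrev Q₀₁ : Type u := G'.N₀₁ ⧸ LinearMap.range (φ.φ₀₁.restrictScalars A)

/-- `Q₀ → Q₀₁`. -/
def q₀ : φ.Q₀ →ₗ[A] φ.Q₀₁ :=
  Submodule.mapQ _ _ (G'.r₀.restrictScalars A) (by
    rintro _ ⟨s, rfl⟩
    exact ⟨G.r₀ s, φ.comm₀ s⟩)

/-- `Q₁ → Q₀₁`. -/
def q₁ : φ.Q₁ →ₗ[A] φ.Q₀₁ :=
  Submodule.mapQ _ _ (G'.r₁.restrictScalars A) (by
    rintro _ ⟨s, rfl⟩
    exact ⟨G.r₁ s, φ.comm₁ s⟩)

/-- The Čech differential of the cokernel. -/
def cechQ : (φ.Q₀ × φ.Q₁) →ₗ[A] φ.Q₀₁ := φ.q₀.coprod (-φ.q₁)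

/-- `Č⁰(G) → Č⁰(G')`. -/
def i0 : (G.N₀ × G.N₁) →ₗ[A] (G'.N₀ × G'.N₁) :=
  LinearMap.prodMap (φ.φ₀.restrictScalars A) (φ.φ₁.restrictScalars A)

/-- `Č⁰(G') → Č⁰(Q)`. -/
def p0 : (G'.N₀ × G'.N₁) →ₗ[A] (φ.Q₀ × φ.Q₁) :=
  LinearMap.prodMap (Submodule.mkQ _) (Submodule.mkQ _)

end GDHom

end Hom

section Field

variable {K R₀ R₁ R₀₁ : Type u} [Field K] [CommRing R₀] [CommRing R₁]
    [CommRing R₀₁] [Algebra K R₀] [Algebra K R₁] [Algebra K R₀₁] [Algebra R₀ R₀₁]
    [Algebra R₁ R₀₁] [IsScalarTower K R₀ R₀₁] [IsScalarTower K R₁ R₀₁]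
    {G G' : GlueDatum K R₀ R₁ R₀₁} (φ : GDHom G G')

namespace GDHom

/-- The short exact sequence of Čech complexes attached to an injective morphism. -/
theorem twoTermSES (h₀ : Function.Injective φ.φ₀) (h₁ : Function.Injective φ.φ₁)
    (h₀₁ : Function.Injective φ.φ₀₁) :
    TwoTermSES G.cech G'.cech φ.cechQ φ.i0 φ.p0 (φ.φ₀₁.restrictScalars K)
      (Submodule.mkQ _) where
  comm_i := by
    rintro ⟨a, b⟩
    simp only [GlueDatum.cech, i0, LinearMap.coprod_apply, LinearMap.neg_apply,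
      LinearMap.restrictScalars_apply, LinearMap.prodMap_apply, map_add, map_neg,
      φ.comm₀, φ.comm₁]
  comm_p := by
    rintro ⟨a, b⟩
    simp only [GlueDatum.cech, p0, cechQ, q₀, q₁, LinearMap.coprod_apply, LinearMap.neg_apply,
      LinearMap.restrictScalars_apply, LinearMap.prodMap_apply, map_add, map_neg,
      Submodule.mkQ_apply, Submodule.mapQ_apply]
  inj0 := by
    rintro ⟨a, b⟩ ⟨a', b'⟩ h
    simp only [i0, LinearMap.prodMap_apply, LinearMap.restrictScalars_apply,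
      Prod.mk.injEq] at h
    exact Prod.ext (h₀ h.1) (h₁ h.2)
  exact0 := by
    rintro ⟨a, b⟩
    simp only [p0, i0, LinearMap.prodMap_apply, Submodule.mkQ_apply, Prod.mk_eq_zero,
      Submodule.Quotient.mk_eq_zero, LinearMap.mem_range, LinearMap.restrictScalars_apply,
      Prod.exists, Prod.mk.injEq]
    constructor
    · rintro ⟨⟨s, hs⟩, ⟨t, ht⟩⟩
      exact ⟨s, t, hs, ht⟩
    · rintro ⟨s, t, hs, ht⟩
      exact ⟨⟨s, hs⟩, ⟨t, ht⟩⟩
  surj0 := by
    rintro ⟨q, q'⟩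
    obtain ⟨a, rfl⟩ := Submodule.mkQ_surjective _ q
    obtain ⟨b, rfl⟩ := Submodule.mkQ_surjective _ q'
    exact ⟨(a, b), rfl⟩
  inj1 := h₀₁
  exact1 := by
    intro b
    rw [Submodule.mkQ_apply, Submodule.Quotient.mk_eq_zero]
    rfl
  surj1 := Submodule.mkQ_surjective _

/-- **D3 (modification formula).** For an injective morphism of gluing data over a field with
finite-dimensional cokernels: `χ(G') = χ(G) + dim Q₀ + dim Q₁ - dim Q₀₁`. -/
theorem euler_eq (h₀ : Function.Injective φ.φ₀) (h₁ : Function.Injective φ.φ₁)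
    (h₀₁ : Function.Injective φ.φ₀₁) [Module.Finite K G.H0] [Module.Finite K G.H1]
    [Module.Finite K φ.Q₀] [Module.Finite K φ.Q₁] [Module.Finite K φ.Q₀₁] :
    Module.Finite K G'.H0 ∧ Module.Finite K G'.H1 ∧
      G'.euler = G.euler + (finrank K φ.Q₀ : ℤ) + (finrank K φ.Q₁ : ℤ) -
        (finrank K φ.Q₀₁ : ℤ) := by
  have hses := φ.twoTermSES h₀ h₁ h₀₁
  have hA0 : Module.Finite K (LinearMap.ker G.cech) := ‹Module.Finite K G.H0›
  have hA1 : Module.Finite K (G.N₀₁ ⧸ LinearMap.range G.cech) := ‹Module.Finite K G.H1›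
  have hC0 : Module.Finite K (LinearMap.ker φ.cechQ) := inferInstance
  have hC1 : Module.Finite K (φ.Q₀₁ ⧸ LinearMap.range φ.cechQ) := inferInstance
  refine ⟨hses.finite_H0, hses.finite_H1, ?_⟩
  have e := hses.eulerChar_eq
  have eC := eulerChar_of_finite φ.cechQ
  rw [Module.finrank_prod] at eC
  have eA : G.euler = eulerChar G.cech := rfl
  have eB : G'.euler = eulerChar G'.cech := rfl
  rw [eA, eB, e, eC]
  push_cast
  ring

/-- If `Q₁ → Q₀₁` is onto, then `H¹(G) → H¹(G')` is onto. -/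
theorem h1_surjective (h₀ : Function.Injective φ.φ₀) (h₁ : Function.Injective φ.φ₁)
    (h₀₁ : Function.Injective φ.φ₀₁) (hq : Function.Surjective φ.q₁) :
    Function.Surjective (φ.twoTermSES h₀ h₁ h₀₁).mapC := by
  apply TwoTermSES.mapC_surjective
  intro z
  obtain ⟨b, rfl⟩ := hq z
  exact ⟨(0, -b), by simp [cechQ]⟩

end GDHom

end Field

/-! ### One chart: a map of invertible modules and its localisation -/

section LocPair

variable {R : Type*} {R' : Type*} [CommRing R] [IsDomain R] [CommRing R'] [Algebra R R']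
  {N : Type*} {N' : Type*} {M : Type*} {M' : Type*}
  [AddCommGroup N] [AddCommGroup N'] [AddCommGroup M] [AddCommGroup M']
  [Module R N] [Module R N'] [Module R M] [Module R' M] [IsScalarTower R R' M]
  [Module R M'] [Module R' M'] [IsScalarTower R R' M']

omit [IsDomain R] in
theorem isLocalizedModule_of_isBaseChange (x : R) [IsLocalization.Away x R']
    (r : N →ₗ[R] M) (hr : IsBaseChange R' r) :
    IsLocalizedModule (Submonoid.powers x) r :=
  (isLocalizedModule_iff_isBaseChange (Submonoid.powers x) R' r).mpr hr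

/-- (L1) the restriction map of an invertible module over a domain is injective. -/
theorem injective_of_isBaseChange_away (x : R) [IsLocalization.Away x R']
    [Module.Invertible R N] (hx : x ≠ 0)
    (r : N →ₗ[R] M) (hr : IsBaseChange R' r) : Function.Injective r := by
  have := isLocalizedModule_of_isBaseChange x r hr
  rw [injective_iff_map_eq_zero]
  intro n hn
  obtain ⟨⟨s, k, rfl⟩, hs⟩ := (IsLocalizedModule.eq_zero_iff (Submonoid.powers x) r).mp hn
  rcases eq_zero_or_eq_zero_of_smul_eq_zero_of_invertible (show x ^ k • n = 0 from hs) with h | h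
  · exact absurd h (pow_ne_zero k hx)
  · exact h

omit [IsDomain R] [Module R M'] [IsScalarTower R R' M'] in
/-- (L3) a map on the localisation which vanishes on the image of `r` vanishes. -/
theorem eq_zero_of_comp_eq_zero (x : R) [IsLocalization.Away x R']
    (r : N →ₗ[R] M) (hr : IsBaseChange R' r)
    (ψ' : M →ₗ[R'] M') (h : ∀ n, ψ' (r n) = 0) : ψ' = 0 := by
  have := isLocalizedModule_of_isBaseChange x r hr
  refine LinearMap.ext fun z => ?_
  obtain ⟨⟨n, s⟩, hs⟩ := IsLocalizedModule.surj (Submonoid.powers x) r z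
  have hu : IsUnit (algebraMap R R' (s : R)) := IsLocalization.map_units R' s
  have h1 : algebraMap R R' (s : R) • ψ' z = 0 := by
    rw [← map_smul, algebraMap_smul]
    show ψ' (s • z) = 0
    rw [hs, h]
  obtain ⟨u, hu'⟩ := hu
  rw [← hu'] at h1
  have h2 := congrArg (fun w => (↑u⁻¹ : R') • w) h1
  simpa [smul_smul] using h2

/-- (L2) the localisation of an injective map of invertible modules is injective. -/
theorem injective_of_injective_away (x : R) [IsLocalization.Away x R']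
    [Module.Invertible R N'] (hx : x ≠ 0)
    (r : N →ₗ[R] M) (hr : IsBaseChange R' r) (r' : N' →ₗ[R] M') (hr' : IsBaseChange R' r')
    (ψ : N →ₗ[R] N') (ψ' : M →ₗ[R'] M') (hcomm : ∀ n, ψ' (r n) = r' (ψ n))
    (hψ : Function.Injective ψ) : Function.Injective ψ' := by
  have := isLocalizedModule_of_isBaseChange x r hr
  rw [injective_iff_map_eq_zero]
  intro z hz
  obtain ⟨⟨n, s⟩, hs⟩ := IsLocalizedModule.surj (Submonoid.powers x) r z
  have h1 : r' (ψ n) = 0 := by
    rw [← hcomm, ← hs]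
    show ψ' ((s : R) • z) = 0
    rw [← algebraMap_smul R' (s : R) z, map_smul, hz, smul_zero]
  have h2 : n = 0 := by
    apply hψ
    rw [map_zero]
    exact injective_of_isBaseChange_away x hx r' hr' (by rw [h1, map_zero])
  rw [h2, map_zero] at hs
  exact IsLocalizedModule.smul_injective r s (by simpa using hs)

omit [IsDomain R] [IsScalarTower R R' M] in
/-- (L4) if the cokernel of `ψ` is finite-dimensional over a field `K`, then the cokernel of
`ψ` maps ONTO the cokernel of its localisation `ψ'`. -/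
theorem exists_sub_mem_range_of_finite (K : Type*) [Field K] [Algebra K R]
    [Module K N] [IsScalarTower K R N] [Module K N'] [IsScalarTower K R N']
    (x : R) [IsLocalization.Away x R']
    (r : N →ₗ[R] M) (r' : N' →ₗ[R] M') (hr' : IsBaseChange R' r')
    (ψ : N →ₗ[R] N') (ψ' : M →ₗ[R'] M') (hcomm : ∀ n, ψ' (r n) = r' (ψ n))
    [Module.Finite K (N' ⧸ LinearMap.range (ψ.restrictScalars K))] (z' : M') :
    ∃ n' : N', z' - r' n' ∈ LinearMap.range ψ' := by
  have := isLocalizedModule_of_isBaseChange x r' hr'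
  set P := LinearMap.range (ψ.restrictScalars K) with hP
  -- multiplication by `x` on the cokernel
  let mx : N' →ₗ[K] N' := (LinearMap.lsmul R N' x).restrictScalars K
  have hmx : P ≤ P.comap mx := by
    rintro _ ⟨n, rfl⟩
    exact ⟨x • n, by simp [mx]⟩
  let f : Module.End K (N' ⧸ P) := P.mapQ P mx hmx
  have hf : ∀ (j : ℕ) (n : N'), (f ^ j) (Submodule.Quotient.mk n) =
      Submodule.Quotient.mk (x ^ j • n) := by
    intro j
    induction j with
    | zero => intro n; simp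
    | succ j ih =>
      intro n
      rw [pow_succ, Module.End.mul_apply]
      show (f ^ j) (Submodule.Quotient.mk (x • n)) = _
      rw [ih, smul_smul, ← pow_succ]
  obtain ⟨m0, hm0⟩ := (LinearMap.eventually_iInf_range_pow_eq f).exists
  obtain ⟨⟨n0, s⟩, hs⟩ := IsLocalizedModule.surj (Submonoid.powers x) r' z'
  obtain ⟨k, hk⟩ := s.2
  have hk' : x ^ k = (s : R) := hk
  have hs' : x ^ k • z' = r' n0 := by
    rw [← hs, hk']
    rfl
  -- stabilisation
  have h1 : (f ^ m0) (Submodule.Quotient.mk n0) ∈ LinearMap.range (f ^ (m0 + k)) := by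
    have h2 : (f ^ m0) (Submodule.Quotient.mk n0) ∈ LinearMap.range (f ^ m0) := ⟨_, rfl⟩
    rw [← hm0] at h2
    exact (Submodule.mem_iInf _).mp h2 (m0 + k)
  obtain ⟨q, hq⟩ := h1
  obtain ⟨n1, rfl⟩ := Submodule.mkQ_surjective _ q
  rw [Submodule.mkQ_apply, hf, hf, eq_comm, Submodule.Quotient.eq] at hq
  obtain ⟨t, ht⟩ := hq
  have ht' : ψ t = x ^ m0 • n0 - x ^ (m0 + k) • n1 := ht
  -- `x ^ (m0 + k) • (z' - r' n1) = ψ' (r t)`
  have h3 : x ^ (m0 + k) • (z' - r' n1) = ψ' (r t) := by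
    rw [hcomm, ht', map_sub, map_smul, map_smul, smul_sub, pow_add, mul_smul, hs']
  have hu : IsUnit (algebraMap R R' (x ^ (m0 + k))) :=
    IsLocalization.map_units R' (⟨x ^ (m0 + k), m0 + k, rfl⟩ : Submonoid.powers x)
  obtain ⟨u, hu'⟩ := hu
  refine ⟨n1, (↑u⁻¹ : R') • r t, ?_⟩
  rw [map_smul, ← h3, ← algebraMap_smul R' (x ^ (m0 + k)) (z' - r' n1), ← hu', smul_smul,
    Units.inv_mul, one_smul]

end LocPair

/-! ### Curve cospans -/

section Curve

variable {K R₀ R₁ R₀₁ : Type u} [Field K] [CommRing R₀] [CommRing R₁]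
    [CommRing R₀₁] [Algebra K R₀] [Algebra K R₁] [Algebra K R₀₁] [Algebra R₀ R₀₁]
    [Algebra R₁ R₀₁] [IsScalarTower K R₀ R₀₁] [IsScalarTower K R₁ R₀₁]

/-- The hypotheses on a cospan `R₀ → R₀₁ ← R₁` of `K`-algebras used in the degree theory:
two one-dimensional domains, finite over `K[x]` resp. `K[y]`, with common localisation
`R₀₁ = R₀[1/x] = R₁[1/y]`.  (For a curve chart: `R_i = K ⊗[k] B_i`.) -/
structure IsCurveCospan (K : Type u) {R₀ R₁ : Type u} (R₀₁ : Type u) [Field K] [CommRing R₀]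
    [CommRing R₁] [CommRing R₀₁] [Algebra K R₀] [Algebra K R₁] [Algebra R₀ R₀₁]
    [Algebra R₁ R₀₁] (x : R₀) (y : R₁) : Prop where
  isDomain₀ : IsDomain R₀
  isDomain₁ : IsDomain R₁
  away₀ : IsLocalization.Away x R₀₁
  away₁ : IsLocalization.Away y R₀₁
  finite₀ : (Polynomial.aeval x : Polynomial K →ₐ[K] R₀).Finite
  finite₁ : (Polynomial.aeval y : Polynomial K →ₐ[K] R₁).Finite
  x_ne_zero : x ≠ 0
  y_ne_zero : y ≠ 0

variable {x : R₀} {y : R₁} {G G' : GlueDatum K R₀ R₁ R₀₁}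

namespace GDHom

variable (φ : GDHom G G')

include x y in
theorem φ₀_ne_zero (hC : IsCurveCospan K R₀₁ x y) (hφ : φ.φ₀₁ ≠ 0) : φ.φ₀ ≠ 0 := by
  have := hC.away₀
  intro h
  apply hφ
  refine eq_zero_of_comp_eq_zero x G.r₀ G.isBaseChange₀ φ.φ₀₁ (fun n => ?_)
  rw [φ.comm₀, h, LinearMap.zero_apply, map_zero]

include x y in
theorem φ₁_ne_zero (hC : IsCurveCospan K R₀₁ x y) (hφ : φ.φ₀₁ ≠ 0) : φ.φ₁ ≠ 0 := by
  have := hC.away₁
  intro h
  apply hφ
  refine eq_zero_of_comp_eq_zero y G.r₁ G.isBaseChange₁ φ.φ₀₁ (fun n => ?_)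
  rw [φ.comm₁, h, LinearMap.zero_apply, map_zero]

include x y in
theorem φ₀₁_ne_zero_of_φ₀ (hC : IsCurveCospan K R₀₁ x y) (h : φ.φ₀ ≠ 0) : φ.φ₀₁ ≠ 0 := by
  have := hC.away₀
  have := hC.isDomain₀
  have := G'.invertible₀
  intro h0
  apply h
  refine LinearMap.ext fun n => ?_
  apply injective_of_isBaseChange_away x hC.x_ne_zero G'.r₀ G'.isBaseChange₀
  rw [← φ.comm₀, h0, LinearMap.zero_apply, LinearMap.zero_apply, map_zero]

include x y in
theorem φ₀₁_ne_zero_of_φ₁ (hC : IsCurveCospan K R₀₁ x y) (h : φ.φ₁ ≠ 0) : φ.φ₀₁ ≠ 0 := by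
  have := hC.away₁
  have := hC.isDomain₁
  have := G'.invertible₁
  intro h0
  apply h
  refine LinearMap.ext fun n => ?_
  apply injective_of_isBaseChange_away y hC.y_ne_zero G'.r₁ G'.isBaseChange₁
  rw [← φ.comm₁, h0, LinearMap.zero_apply, LinearMap.zero_apply, map_zero]

include x y in
theorem injective₀ (hC : IsCurveCospan K R₀₁ x y) (hφ : φ.φ₀₁ ≠ 0) :
    Function.Injective φ.φ₀ := by
  have := hC.isDomain₀
  have := G.invertible₀
  have := G'.invertible₀
  exact injective_of_ne_zero_of_invertible φ.φ₀ (φ.φ₀_ne_zero hC hφ)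

include x y in
theorem injective₁ (hC : IsCurveCospan K R₀₁ x y) (hφ : φ.φ₀₁ ≠ 0) :
    Function.Injective φ.φ₁ := by
  have := hC.isDomain₁
  have := G.invertible₁
  have := G'.invertible₁
  exact injective_of_ne_zero_of_invertible φ.φ₁ (φ.φ₁_ne_zero hC hφ)

include x y in
theorem injective₀₁ (hC : IsCurveCospan K R₀₁ x y) (hφ : φ.φ₀₁ ≠ 0) :
    Function.Injective φ.φ₀₁ := by
  have := hC.away₀
  have := hC.isDomain₀
  have := G'.invertible₀
  exact injective_of_injective_away x hC.x_ne_zero G.r₀ G.isBaseChange₀ G'.r₀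
    G'.isBaseChange₀ φ.φ₀ φ.φ₀₁ φ.comm₀ (φ.injective₀ hC hφ)

/-- Finite-dimensionality of a torsion cokernel, in the `K`-linear quotient form. -/
theorem finite_quotient_range_restrictScalars {R : Type*} [CommRing R] [IsDomain R]
    [Algebra K R] (x : R) (hfin : (Polynomial.aeval x : Polynomial K →ₐ[K] R).Finite)
    {N : Type*} {N' : Type*} [AddCommGroup N] [AddCommGroup N'] [Module R N] [Module R N']
    [Module K N] [Module K N'] [IsScalarTower K R N] [IsScalarTower K R N']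
    [Module.Invertible R N'] (ψ : N →ₗ[R] N') (hψ : ψ ≠ 0) :
    Module.Finite K (N' ⧸ LinearMap.range (ψ.restrictScalars K)) := by
  obtain ⟨a, ha, haN⟩ := exists_ne_zero_forall_smul_mem_range ψ hψ
  have h1 : Module.Finite K (N' ⧸ LinearMap.range ψ) := by
    refine finite_of_torsion_of_finite_aeval x hfin a ha (fun q => ?_)
    obtain ⟨n', rfl⟩ := Submodule.mkQ_surjective _ q
    rw [Submodule.mkQ_apply, ← Submodule.Quotient.mk_smul, Submodule.Quotient.mk_eq_zero]
    exact haN n'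
  have e : (N' ⧸ LinearMap.range (ψ.restrictScalars K)) ≃ₗ[K] (N' ⧸ LinearMap.range ψ) :=
    Submodule.quotEquivOfEq _ _ (LinearMap.range_restrictScalars (R := K) ψ) ≪≫ₗ
      Submodule.Quotient.restrictScalarsEquiv K (LinearMap.range ψ)
  exact Module.Finite.equiv e.symm

include x y in
theorem finite_Q₀ (hC : IsCurveCospan K R₀₁ x y) (hφ : φ.φ₀₁ ≠ 0) :
    Module.Finite K φ.Q₀ := by
  have := hC.isDomain₀
  have := G'.invertible₀
  exact finite_quotient_range_restrictScalars x hC.finite₀ φ.φ₀ (φ.φ₀_ne_zero hC hφ)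

include x y in
theorem finite_Q₁ (hC : IsCurveCospan K R₀₁ x y) (hφ : φ.φ₀₁ ≠ 0) :
    Module.Finite K φ.Q₁ := by
  have := hC.isDomain₁
  have := G'.invertible₁
  exact finite_quotient_range_restrictScalars y hC.finite₁ φ.φ₁ (φ.φ₁_ne_zero hC hφ)

include x y in
theorem q₀_surjective (hC : IsCurveCospan K R₀₁ x y) (hφ : φ.φ₀₁ ≠ 0) :
    Function.Surjective φ.q₀ := by
  have := hC.away₀
  have := φ.finite_Q₀ hC hφ
  intro q
  obtain ⟨z', rfl⟩ := Submodule.mkQ_surjective _ q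
  obtain ⟨n', w, hw⟩ := exists_sub_mem_range_of_finite K x G.r₀ G'.r₀ G'.isBaseChange₀
    φ.φ₀ φ.φ₀₁ φ.comm₀ z'
  refine ⟨Submodule.Quotient.mk n', ?_⟩
  rw [Submodule.mkQ_apply, eq_comm]
  show Submodule.Quotient.mk z' = Submodule.Quotient.mk (G'.r₀ n')
  rw [Submodule.Quotient.eq]
  exact ⟨w, hw⟩

include x y in
theorem q₁_surjective (hC : IsCurveCospan K R₀₁ x y) (hφ : φ.φ₀₁ ≠ 0) :
    Function.Surjective φ.q₁ := by
  have := hC.away₁
  have := φ.finite_Q₁ hC hφ
  intro q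
  obtain ⟨z', rfl⟩ := Submodule.mkQ_surjective _ q
  obtain ⟨n', w, hw⟩ := exists_sub_mem_range_of_finite K y G.r₁ G'.r₁ G'.isBaseChange₁
    φ.φ₁ φ.φ₀₁ φ.comm₁ z'
  refine ⟨Submodule.Quotient.mk n', ?_⟩
  rw [Submodule.mkQ_apply, eq_comm]
  show Submodule.Quotient.mk z' = Submodule.Quotient.mk (G'.r₁ n')
  rw [Submodule.Quotient.eq]
  exact ⟨w, hw⟩

include x y in
theorem finite_Q₀₁ (hC : IsCurveCospan K R₀₁ x y) (hφ : φ.φ₀₁ ≠ 0) :
    Module.Finite K φ.Q₀₁ := by
  have := φ.finite_Q₀ hC hφ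
  exact Module.Finite.of_surjective φ.q₀ (φ.q₀_surjective hC hφ)

include x y in
/-- **D3 + D5, morphism form.** A nonzero morphism `φ : G → G'` of gluing data on a curve
cospan over a field is injective with finite-dimensional cokernels;
`χ(G') = χ(G) + dim Q₀ + dim Q₁ - dim Q₀₁ ≥ χ(G) + max (dim Q₀) (dim Q₁)`. -/
theorem euler_formula (hC : IsCurveCospan K R₀₁ x y) (hφ : φ.φ₀₁ ≠ 0)
    [Module.Finite K G.H0] [Module.Finite K G.H1] :
    Module.Finite K G'.H0 ∧ Module.Finite K G'.H1 ∧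
      G'.euler = G.euler + (finrank K φ.Q₀ : ℤ) + (finrank K φ.Q₁ : ℤ) -
        (finrank K φ.Q₀₁ : ℤ) ∧
      finrank K φ.Q₀₁ ≤ finrank K φ.Q₀ ∧ finrank K φ.Q₀₁ ≤ finrank K φ.Q₁ := by
  have := φ.finite_Q₀ hC hφ
  have := φ.finite_Q₁ hC hφ
  have := φ.finite_Q₀₁ hC hφ
  obtain ⟨h1, h2, h3⟩ := φ.euler_eq (φ.injective₀ hC hφ) (φ.injective₁ hC hφ)
    (φ.injective₀₁ hC hφ)
  exact ⟨h1, h2, h3, LinearMap.finrank_le_finrank_of_surjective (φ.q₀_surjective hC hφ),
    LinearMap.finrank_le_finrank_of_surjective (φ.q₁_surjective hC hφ)⟩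

include x y in
/-- A nonzero morphism does not decrease the Euler characteristic (hence the degree). -/
theorem euler_le (hC : IsCurveCospan K R₀₁ x y) (hφ : φ.φ₀₁ ≠ 0)
    [Module.Finite K G.H0] [Module.Finite K G.H1] : G.euler ≤ G'.euler := by
  obtain ⟨-, -, h3, h4, h5⟩ := φ.euler_formula hC hφ
  omega

include x y in
theorem degree_le (hC : IsCurveCospan K R₀₁ x y) (hφ : φ.φ₀₁ ≠ 0)
    [Module.Finite K G.H0] [Module.Finite K G.H1] : G.degree ≤ G'.degree := by
  have := φ.euler_le hC hφ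
  unfold GlueDatum.degree
  omega

include x y in
/-- **D5.** A nonzero morphism between gluing data with the same Euler characteristic
(e.g. the same degree) is an isomorphism. -/
theorem bijective_of_euler_eq (hC : IsCurveCospan K R₀₁ x y) (hφ : φ.φ₀₁ ≠ 0)
    [Module.Finite K G.H0] [Module.Finite K G.H1] (he : G'.euler = G.euler) :
    Function.Bijective φ.φ₀ ∧ Function.Bijective φ.φ₁ ∧ Function.Bijective φ.φ₀₁ := by
  have f0 := φ.finite_Q₀ hC hφ
  have f1 := φ.finite_Q₁ hC hφ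
  have f01 := φ.finite_Q₀₁ hC hφ
  obtain ⟨-, -, h3, h4, h5⟩ := φ.euler_formula hC hφ
  have d0 : finrank K φ.Q₀ = 0 := by omega
  have d1 : finrank K φ.Q₁ = 0 := by omega
  have d01 : finrank K φ.Q₀₁ = 0 := by omega
  have key : ∀ {V : Type u} {W : Type u} [AddCommGroup V] [AddCommGroup W] [Module K V]
      [Module K W] (f : V →ₗ[K] W) [Module.Finite K (W ⧸ LinearMap.range f)],
      finrank K (W ⧸ LinearMap.range f) = 0 → Function.Surjective f := by
    intro V W _ _ _ _ f _ hf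
    rw [Module.finrank_zero_iff, Submodule.Quotient.subsingleton_iff] at hf
    exact LinearMap.range_eq_top.mp hf
  exact ⟨⟨φ.injective₀ hC hφ, key (φ.φ₀.restrictScalars K) d0⟩,
    ⟨φ.injective₁ hC hφ, key (φ.φ₁.restrictScalars K) d1⟩,
    ⟨φ.injective₀₁ hC hφ, key (φ.φ₀₁.restrictScalars K) d01⟩⟩

include x y in
/-- **D5.** A nonzero morphism between gluing data with the same Euler characteristic
is an isomorphism of gluing data. -/
theorem isIso_of_euler_eq (hC : IsCurveCospan K R₀₁ x y) (hφ : φ.φ₀₁ ≠ 0)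
    [Module.Finite K G.H0] [Module.Finite K G.H1] (he : G'.euler = G.euler) :
    G.IsIso G' := by
  obtain ⟨b0, b1, b01⟩ := φ.bijective_of_euler_eq hC hφ he
  exact ⟨{ e₀ := LinearEquiv.ofBijective φ.φ₀ b0
           e₁ := LinearEquiv.ofBijective φ.φ₁ b1
           e₀₁ := LinearEquiv.ofBijective φ.φ₀₁ b01
           comm₀ := φ.comm₀
           comm₁ := φ.comm₁ }⟩

include x y in
theorem isIso_of_degree_eq (hC : IsCurveCospan K R₀₁ x y) (hφ : φ.φ₀₁ ≠ 0)
    [Module.Finite K G.H0] [Module.Finite K G.H1] (he : G'.degree = G.degree) :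
    G.IsIso G' := by
  apply φ.isIso_of_euler_eq hC hφ
  unfold GlueDatum.degree at he
  omega

end GDHom

end Curve

end Fermat.Agent.S25.H370
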