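/-
S25 / DEGREE (helper370): invertible modules over a domain — rank-one facts, and
finite-dimensionality of torsion quotients over a one-dimensional base `K[x] → R`.
Mathlib only.
-/
import Mathlib

set_option autoImplicit false

namespace Fermat.Agent.S25.H370

open Polynomial

section RankOne

variable (R : Type*) [CommRing R] [IsDomain R]
variable (N : Type*) [AddCommGroup N] [Module R N] [Module.Invertible R N]

/-- An invertible module over a domain embeds into the ring, and any two of its elements are
proportional. -/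
theorem exists_embedding_of_invertible :
    ∃ g : N →ₗ[R] R, Function.Injective g ∧ ∀ n n' : N, g n • n' = g n' • n := by
  obtain ⟨I, ⟨e⟩⟩ := Module.Invertible.exists_linearEquiv_ideal R N
  refine ⟨I.subtype ∘ₗ e.toLinearMap, I.subtype_injective.comp e.injective, fun n n' => ?_⟩
  apply e.injective
  apply Subtype.ext
  simp only [LinearMap.coe_comp, Function.comp_apply, LinearEquiv.coe_coe, map_smul,
    Submodule.coe_smul, Submodule.coe_subtype, smul_eq_mul]
  exact mul_comm _ _

variable {R N}

/-- Invertible modules over a domain are torsion-free. -/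
theorem eq_zero_or_eq_zero_of_smul_eq_zero_of_invertible {r : R} {n : N} (h : r • n = 0) :
    r = 0 ∨ n = 0 := by
  obtain ⟨g, hg, -⟩ := exists_embedding_of_invertible R N
  have h1 : r * g n = 0 := by rw [← smul_eq_mul, ← map_smul, h, map_zero]
  rcases mul_eq_zero.mp h1 with h2 | h2
  · exact Or.inl h2
  · exact Or.inr (hg (by rw [h2, map_zero]))

variable {N' : Type*} [AddCommGroup N'] [Module R N'] [Module.Invertible R N']

/-- A nonzero map between invertible modules over a domain is injective. -/
theorem injective_of_ne_zero_of_invertible (φ : N →ₗ[R] N') (hφ : φ ≠ 0) :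
    Function.Injective φ := by
  obtain ⟨g, hg, hcomm⟩ := exists_embedding_of_invertible R N
  obtain ⟨n₁, hn₁⟩ : ∃ n₁, φ n₁ ≠ 0 := by
    by_contra h
    exact hφ (LinearMap.ext fun n => by_contra fun hn => h ⟨n, hn⟩)
  rw [injective_iff_map_eq_zero]
  intro n hn
  have h1 := congrArg φ (hcomm n n₁)
  rw [map_smul, map_smul, hn, smul_zero] at h1
  rcases eq_zero_or_eq_zero_of_smul_eq_zero_of_invertible h1 with h2 | h2
  · exact hg (by rw [h2, map_zero])
  · exact absurd h2 hn₁

omit [Module.Invertible R N] in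
/-- The cokernel of a nonzero map between invertible modules over a domain is killed by a
nonzero element. -/
theorem exists_ne_zero_forall_smul_mem_range (φ : N →ₗ[R] N') (hφ : φ ≠ 0) :
    ∃ a : R, a ≠ 0 ∧ ∀ n' : N', a • n' ∈ LinearMap.range φ := by
  obtain ⟨g', hg', hcomm'⟩ := exists_embedding_of_invertible R N'
  obtain ⟨n₁, hn₁⟩ : ∃ n₁, φ n₁ ≠ 0 := by
    by_contra h
    exact hφ (LinearMap.ext fun n => by_contra fun hn => h ⟨n, hn⟩)
  refine ⟨g' (φ n₁), fun h => hn₁ (hg' (by rw [h, map_zero])), fun n' => ⟨g' n' • n₁, ?_⟩⟩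
  rw [map_smul, hcomm']

end RankOne

section FiniteDim

variable {K : Type*} [Field K]

/-- A finitely generated `K[X]`-module killed by a nonzero polynomial is finite-dimensional
over `K`. -/
theorem finite_of_polynomial_torsion {Q : Type*} [AddCommGroup Q] [Module K Q] [Module K[X] Q]
    [IsScalarTower K K[X] Q] [Module.Finite K[X] Q] (c : K[X]) (hc : c ≠ 0)
    (hcQ : ∀ q : Q, c • q = 0) : Module.Finite K Q := by
  -- normalise `c`
  set c' : K[X] := c * C (c.leadingCoeff)⁻¹ with hc'
  have hmonic : c'.Monic := Polynomial.monic_mul_leadingCoeff_inv hc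
  have hc'Q : ∀ q : Q, c' • q = 0 := fun q => by
    rw [hc', mul_comm, mul_smul, hcQ, smul_zero]
  have htors : Module.IsTorsionBySet K[X] Q (Ideal.span {c'} : Ideal K[X]) := by
    intro q ⟨r, hr⟩
    obtain ⟨d, rfl⟩ := Ideal.mem_span_singleton'.mp hr
    show (d * c') • q = 0
    rw [mul_smul, hc'Q, smul_zero]
  let _ : Module (K[X] ⧸ (Ideal.span {c'} : Ideal K[X])) Q := htors.module
  have : IsScalarTower K[X] (K[X] ⧸ (Ideal.span {c'} : Ideal K[X])) Q :=
    ⟨fun p l q => by
      obtain ⟨l, rfl⟩ := Ideal.Quotient.mk_surjective l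
      show (Ideal.Quotient.mk _ (p * l)) • q = p • (Ideal.Quotient.mk _ l • q)
      rw [Module.IsTorsionBySet.mk_smul, Module.IsTorsionBySet.mk_smul, mul_smul]⟩
  have : IsScalarTower K (K[X] ⧸ (Ideal.span {c'} : Ideal K[X])) Q :=
    ⟨fun k l q => by
      obtain ⟨l, rfl⟩ := Ideal.Quotient.mk_surjective l
      show (Ideal.Quotient.mk _ (k • l)) • q = k • (Ideal.Quotient.mk _ l • q)
      rw [Module.IsTorsionBySet.mk_smul, Module.IsTorsionBySet.mk_smul, smul_assoc]⟩
  have : Module.Finite K (K[X] ⧸ (Ideal.span {c'} : Ideal K[X])) := hmonic.finite_quotient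
  have : Module.Finite (K[X] ⧸ (Ideal.span {c'} : Ideal K[X])) Q :=
    Module.Finite.of_restrictScalars_finite K[X] _ Q
  exact Module.Finite.trans (K[X] ⧸ (Ideal.span {c'} : Ideal K[X])) Q

/-- Let `R` be a domain which is finite over `K[x]`. A finitely generated `R`-module killed by
a nonzero element of `R` is finite-dimensional over `K`. -/
theorem finite_of_torsion_of_finite_aeval {R : Type*} [CommRing R] [IsDomain R] [Algebra K R]
    (x : R) (hfin : (Polynomial.aeval x : K[X] →ₐ[K] R).Finite)
    {Q : Type*} [AddCommGroup Q] [Module R Q] [Module K Q] [IsScalarTower K R Q]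
    [Module.Finite R Q] (a : R) (ha : a ≠ 0) (haQ : ∀ q : Q, a • q = 0) :
    Module.Finite K Q := by
  let _ : Algebra K[X] R := (Polynomial.aeval x : K[X] →ₐ[K] R).toRingHom.toAlgebra
  have hfinR : Module.Finite K[X] R := hfin
  have halg : ∀ p : K[X], algebraMap K[X] R p = Polynomial.aeval x p := fun _ => rfl
  let _ : Module K[X] Q := Module.compHom Q (algebraMap K[X] R)
  have hsmul : ∀ (p : K[X]) (q : Q), p • q = (Polynomial.aeval x p) • q := fun _ _ => rfl
  have : IsScalarTower K[X] R Q :=
    ⟨fun p r q => by rw [hsmul, Algebra.smul_def, halg, mul_smul]⟩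
  have : IsScalarTower K K[X] Q :=
    ⟨fun k p q => by rw [hsmul, hsmul, map_smul, smul_assoc]⟩
  have : Module.Finite K[X] Q := Module.Finite.trans R Q
  have : Algebra.IsIntegral K[X] R := Algebra.IsIntegral.of_finite K[X] R
  have hne := Ideal.comap_ne_bot_of_integral_mem (R := K[X]) (I := Ideal.span {a}) ha
    (Ideal.mem_span_singleton_self a) (Algebra.IsIntegral.isIntegral a)
  obtain ⟨c, hcmem, hc⟩ := Submodule.exists_mem_ne_zero_of_ne_bot hne
  obtain ⟨b, hb⟩ := Ideal.mem_span_singleton'.mp (Ideal.mem_comap.mp hcmem)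
  refine finite_of_polynomial_torsion c hc (fun q => ?_)
  rw [hsmul, ← halg, ← hb, mul_smul, haQ, smul_zero]

end FiniteDim

end Fermat.Agent.S25.H370
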