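import Mathlib

/-!
# S25 / block CECH / leaf E2  (helper370)

`f : F →ₗ[A] F'` a linear map whose kernel commutes with base change.  Then the cokernel of `f`
is flat; if moreover `F` is finite and `F'` is finite free (or finitely presented and flat), the
cokernel is finitely presented and projective, `range f` and `ker f` are direct summands and
`ker f` is finitely generated projective.

The hypothesis is used only for the base changes `A → A ⧸ J`, `J` a finitely generated ideal, and
is stated in three equivalent-for-our-purposes forms:

* `KerCommutesMod f` (elementary): `f x ∈ J • ⊤ → x ∈ ker f ⊔ J • ⊤` for all f.g. ideals `J`;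
* `KerCommutesQuot f`: for every f.g. ideal `J`, every element of `ker ((A ⧸ J) ⊗ f)` lies in the
  image of `(A ⧸ J) ⊗ ker f`;
* `KerCommutesBaseChange f`: the same for every commutative `A`-algebra `B` (in the universe of `A`).
-/

set_option autoImplicit false

namespace Fermat.Agent.S25.H370

open TensorProduct

universe u v w

variable {A : Type u} [CommRing A] {F : Type v} {F' : Type w}
  [AddCommGroup F] [Module A F] [AddCommGroup F'] [Module A F']

/-- Elementary form of "the kernel of `f` commutes with the base changes `A → A ⧸ J`". -/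
def KerCommutesMod (f : F →ₗ[A] F') : Prop :=
  ∀ J : Ideal A, J.FG → ∀ x : F, f x ∈ J • (⊤ : Submodule A F') →
    x ∈ LinearMap.ker f ⊔ J • (⊤ : Submodule A F)

/-- Tensor form, for the quotient rings `A ⧸ J` only. -/
def KerCommutesQuot (f : F →ₗ[A] F') : Prop :=
  ∀ J : Ideal A, J.FG → ∀ z : (A ⧸ J) ⊗[A] F, f.baseChange (A ⧸ J) z = 0 →
    z ∈ LinearMap.range ((LinearMap.ker f).subtype.baseChange (A ⧸ J))

/-- Tensor form, for all commutative `A`-algebras in the universe of `A`. -/
def KerCommutesBaseChange (f : F →ₗ[A] F') : Prop :=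
  ∀ (B : Type u) [CommRing B] [Algebra A B], ∀ z : B ⊗[A] F, f.baseChange B z = 0 →
    z ∈ LinearMap.range ((LinearMap.ker f).subtype.baseChange B)

theorem KerCommutesBaseChange.kerCommutesQuot {f : F →ₗ[A] F'} (h : KerCommutesBaseChange f) :
    KerCommutesQuot f :=
  fun J _ z hz => h (A ⧸ J) z hz


/-- `1 ⊗ w = 0` in `(A ⧸ J) ⊗ F` iff `w ∈ J • ⊤`. -/
theorem one_tmul_eq_zero_iff (J : Ideal A) (w : F) :
    ((1 : A ⧸ J) ⊗ₜ[A] w = 0) ↔ w ∈ J • (⊤ : Submodule A F) := by
  rw [← (TensorProduct.quotTensorEquivQuotSMul F J).map_eq_zero_iff,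
    TensorProduct.quotTensorEquivQuotSMul_mk_one_tmul, Submodule.Quotient.mk_eq_zero]

/-- Every element of `(A ⧸ J) ⊗ N` is of the form `1 ⊗ n`. -/
theorem exists_one_tmul_eq {N : Type*} [AddCommGroup N] [Module A N] (J : Ideal A)
    (z : (A ⧸ J) ⊗[A] N) : ∃ n : N, z = (1 : A ⧸ J) ⊗ₜ[A] n := by
  induction z using TensorProduct.induction_on with
  | zero => exact ⟨0, by simp⟩
  | tmul b n =>
    obtain ⟨a, rfl⟩ := Ideal.Quotient.mk_surjective b
    refine ⟨a • n, ?_⟩
    rw [← TensorProduct.smul_tmul]
    congr 1
    rw [Algebra.smul_def, mul_one]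
    rfl
  | add x y hx hy =>
    obtain ⟨n, rfl⟩ := hx
    obtain ⟨m, rfl⟩ := hy
    exact ⟨n + m, by rw [TensorProduct.tmul_add]⟩

theorem KerCommutesQuot.kerCommutesMod {f : F →ₗ[A] F'} (h : KerCommutesQuot f) :
    KerCommutesMod f := by
  intro J hJ x hx
  have h0 : f.baseChange (A ⧸ J) ((1 : A ⧸ J) ⊗ₜ[A] x) = 0 := by
    rw [LinearMap.baseChange_tmul, one_tmul_eq_zero_iff]
    exact hx
  obtain ⟨z, hz⟩ := h J hJ _ h0
  obtain ⟨k, rfl⟩ := exists_one_tmul_eq J z
  rw [LinearMap.baseChange_tmul, Submodule.subtype_apply] at hz
  have h1 : (1 : A ⧸ J) ⊗ₜ[A] (x - (k : F)) = 0 := by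
    rw [TensorProduct.tmul_sub, hz, sub_self]
  rw [one_tmul_eq_zero_iff] at h1
  have : x = (k : F) + (x - k) := by abel
  rw [this]
  exact Submodule.add_mem_sup k.2 h1

theorem KerCommutesBaseChange.kerCommutesMod {f : F →ₗ[A] F'} (h : KerCommutesBaseChange f) :
    KerCommutesMod f :=
  h.kerCommutesQuot.kerCommutesMod

/-- **Core of E2.** If the kernel of `f` commutes with the base changes `A → A ⧸ J` and the
target is flat, the cokernel of `f` is flat. -/
theorem flat_coker_of_kerCommutesMod [Module.Flat A F'] (f : F →ₗ[A] F')
    (h : KerCommutesMod f) : Module.Flat A (F' ⧸ LinearMap.range f) := by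
  rw [Module.Flat.iff_rTensor_injective]
  intro J hJ
  rw [injective_iff_map_eq_zero]
  intro t ht
  obtain ⟨s, rfl⟩ := LinearMap.lTensor_surjective J (Submodule.mkQ_surjective (LinearMap.range f)) t
  set q := (LinearMap.range f).mkQ with hq
  have hqf : q ∘ₗ f = 0 := by
    ext x
    simp [hq]
  -- the image `y` of `s` in `F'`
  set y : F' := TensorProduct.lid A F' ((J.subtype.rTensor F') s) with hy
  have hy0 : q y = 0 := by
    have h1 : (q.lTensor A) ((J.subtype.rTensor F') s) = 0 := by
      rw [← ht, ← LinearMap.comp_apply, ← LinearMap.comp_apply,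
        LinearMap.lTensor_comp_rTensor, LinearMap.rTensor_comp_lTensor]
    have h2 : ∀ w : A ⊗[A] F', q (TensorProduct.lid A F' w) =
        TensorProduct.lid A _ ((q.lTensor A) w) := by
      intro w
      induction w using TensorProduct.induction_on with
      | zero => simp
      | tmul a x => simp
      | add a b ha hb => simp only [map_add, ha, hb]
    rw [hy, h2, h1, map_zero]
  have hyr : y ∈ LinearMap.range f := by
    rw [hq, Submodule.mkQ_apply, Submodule.Quotient.mk_eq_zero] at hy0
    exact hy0
  have hyJ : y ∈ J • (⊤ : Submodule A F') := by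
    rw [← Ideal.subtype_rTensor_range]
    exact ⟨s, rfl⟩
  obtain ⟨x, hx⟩ := hyr
  have hxmem := h J hJ x (hx ▸ hyJ)
  obtain ⟨k, hk, z, hz, hkz⟩ := Submodule.mem_sup.mp hxmem
  rw [← Ideal.subtype_rTensor_range] at hz
  obtain ⟨u, hu⟩ := hz
  have hfz : f z = y := by
    rw [← hx, ← hkz, map_add, LinearMap.mem_ker.mp hk, zero_add]
  have hs : s = (f.lTensor J) u := by
    apply Module.Flat.rTensor_preserves_injective_linearMap (M := F') J.subtype
      Subtype.val_injective
    apply (TensorProduct.lid A F').injective
    have h3 : ∀ u : J ⊗[A] F,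
        TensorProduct.lid A F' ((J.subtype.rTensor F') ((f.lTensor J) u)) =
        f (TensorProduct.lid A F ((J.subtype.rTensor F) u)) := by
      intro u
      induction u using TensorProduct.induction_on with
      | zero => simp
      | tmul j x => simp
      | add a b ha hb => simp only [map_add, ha, hb]
    rw [h3]
    have hu' : TensorProduct.lid A F ((J.subtype.rTensor F) u) = z := hu
    rw [hu', hfz]
  rw [hs, ← LinearMap.comp_apply, ← LinearMap.lTensor_comp, hqf]
  simp


section Split

variable {M : Type*} {P : Type*} [AddCommGroup M] [Module A M] [AddCommGroup P] [Module A P]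

/-- A surjection onto a projective module has a retraction onto its kernel. -/
theorem exists_retraction_ker (g : M →ₗ[A] P) (hg : Function.Surjective g)
    [Module.Projective A P] :
    ∃ π : M →ₗ[A] LinearMap.ker g, ∀ k : LinearMap.ker g, π k = k := by
  obtain ⟨s, hs⟩ := g.exists_rightInverse_of_surjective (LinearMap.range_eq_top.mpr hg)
  have hs' : ∀ x, g (s x) = x := fun x => LinearMap.congr_fun hs x
  have hmem : ∀ x : M, ((LinearMap.id : M →ₗ[A] M) - s ∘ₗ g) x ∈ LinearMap.ker g := by
    intro x
    rw [LinearMap.mem_ker, LinearMap.sub_apply, map_sub, LinearMap.id_apply,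
      LinearMap.comp_apply, hs', sub_self]
  refine ⟨(LinearMap.id - s ∘ₗ g).codRestrict (LinearMap.ker g) hmem, fun k => ?_⟩
  apply Subtype.ext
  rw [LinearMap.codRestrict_apply, LinearMap.sub_apply, LinearMap.id_apply,
    LinearMap.comp_apply, LinearMap.mem_ker.mp k.2, map_zero, sub_zero]

theorem exists_isCompl_ker (g : M →ₗ[A] P) (hg : Function.Surjective g)
    [Module.Projective A P] : ∃ K' : Submodule A M, IsCompl (LinearMap.ker g) K' := by
  obtain ⟨π, hπ⟩ := exists_retraction_ker g hg
  exact ⟨LinearMap.ker π, LinearMap.isCompl_of_proj hπ⟩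

theorem projective_ker (g : M →ₗ[A] P) (hg : Function.Surjective g)
    [Module.Projective A P] [Module.Projective A M] : Module.Projective A (LinearMap.ker g) := by
  obtain ⟨π, hπ⟩ := exists_retraction_ker g hg
  exact Module.Projective.of_split (LinearMap.ker g).subtype π (LinearMap.ext fun k => by simp [hπ])

theorem finite_ker (g : M →ₗ[A] P) (hg : Function.Surjective g)
    [Module.Projective A P] [Module.Finite A M] : Module.Finite A (LinearMap.ker g) := by
  obtain ⟨π, hπ⟩ := exists_retraction_ker g hg
  exact Module.Finite.of_surjective π (fun k => ⟨k, hπ k⟩)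

end Split

section Main

variable [Module.Finite A F] [Module.FinitePresentation A F'] [Module.Flat A F']

omit [Module.Flat A F'] in
/-- The cokernel of `f` is finitely presented (no hypothesis on kernels needed). -/
theorem finitePresentation_coker (f : F →ₗ[A] F') :
    Module.FinitePresentation A (F' ⧸ LinearMap.range f) := by
  refine Module.finitePresentation_of_surjective (LinearMap.range f).mkQ
    (Submodule.mkQ_surjective _) ?_
  rw [Submodule.ker_mkQ, LinearMap.range_eq_map]
  exact Submodule.FG.map f Module.Finite.fg_top

/-- **E2, cokernel.** The cokernel of `f` is projective. -/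
theorem projective_coker (f : F →ₗ[A] F') (h : KerCommutesMod f) :
    Module.Projective A (F' ⧸ LinearMap.range f) := by
  have := flat_coker_of_kerCommutesMod f h
  have := finitePresentation_coker f
  exact Module.Flat.projective_of_finitePresentation

/-- **E2, image.** The image of `f` is a direct summand of `F'`. -/
theorem exists_isCompl_range (f : F →ₗ[A] F') (h : KerCommutesMod f) :
    ∃ R' : Submodule A F', IsCompl (LinearMap.range f) R' := by
  have := projective_coker f h
  have := exists_isCompl_ker (LinearMap.range f).mkQ (Submodule.mkQ_surjective _)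
  rwa [Submodule.ker_mkQ] at this

/-- **E2, image.** The image of `f` is projective. -/
theorem projective_range (f : F →ₗ[A] F') (h : KerCommutesMod f) :
    Module.Projective A (LinearMap.range f) := by
  have := projective_coker f h
  have : Module.Projective A F' := Module.Flat.projective_of_finitePresentation
  have := projective_ker (LinearMap.range f).mkQ (Submodule.mkQ_surjective _)
  rwa [Submodule.ker_mkQ] at this

/-- **E2, kernel.** The kernel of `f` is a direct summand of `F`. -/
theorem exists_isCompl_ker_of_kerCommutesMod (f : F →ₗ[A] F') (h : KerCommutesMod f) :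
    ∃ K' : Submodule A F, IsCompl (LinearMap.ker f) K' := by
  have := projective_range f h
  have := exists_isCompl_ker f.rangeRestrict f.surjective_rangeRestrict
  rwa [LinearMap.ker_rangeRestrict] at this

/-- **E2, kernel.** The kernel of `f` is finitely generated. -/
theorem finite_ker_of_kerCommutesMod (f : F →ₗ[A] F') (h : KerCommutesMod f) :
    Module.Finite A (LinearMap.ker f) := by
  have := projective_range f h
  have := finite_ker f.rangeRestrict f.surjective_rangeRestrict
  rwa [LinearMap.ker_rangeRestrict] at this

/-- **E2, kernel.** The kernel of `f` is projective (if `F` is). -/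
theorem projective_ker_of_kerCommutesMod [Module.Projective A F] (f : F →ₗ[A] F')
    (h : KerCommutesMod f) : Module.Projective A (LinearMap.ker f) := by
  have := projective_range f h
  have := projective_ker f.rangeRestrict f.surjective_rangeRestrict
  rwa [LinearMap.ker_rangeRestrict] at this

end Main

section Homotopy

variable [Module.Finite A F] [Module.FinitePresentation A F'] [Module.Flat A F']

/-- A contracting homotopy: a retraction `π` of `F` onto `ker f` and `τ : F' → F` with
`x = π x + τ (f x)`. -/
theorem exists_homotopy (f : F →ₗ[A] F') (h : KerCommutesMod f) :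
    ∃ (π : F →ₗ[A] LinearMap.ker f) (τ : F' →ₗ[A] F),
      (∀ k : LinearMap.ker f, π k = k) ∧ ∀ x : F, ((π x : LinearMap.ker f) : F) + τ (f x) = x := by
  have hP := projective_range f h
  have hC := projective_coker f h
  -- section of `F → range f`
  obtain ⟨s, hs⟩ := f.rangeRestrict.exists_rightInverse_of_surjective
    (LinearMap.range_eq_top.mpr f.surjective_rangeRestrict)
  have hs' : ∀ r : LinearMap.range f, f (s r) = r := fun r => by
    have := LinearMap.congr_fun hs r
    exact congrArg Subtype.val this
  -- retraction of `F'` onto `range f`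
  obtain ⟨e, he⟩ := exists_retraction_ker (LinearMap.range f).mkQ (Submodule.mkQ_surjective _)
  have hker : LinearMap.ker (LinearMap.range f).mkQ = LinearMap.range f := Submodule.ker_mkQ _
  -- transport `e` to a map into `range f`
  let e' : F' →ₗ[A] LinearMap.range f :=
    (LinearEquiv.ofEq _ _ hker).toLinearMap ∘ₗ e
  have he' : ∀ x : F, ((e' (f x) : LinearMap.range f) : F') = f x := by
    intro x
    have hx : f x ∈ LinearMap.ker (LinearMap.range f).mkQ := by
      rw [hker]; exact LinearMap.mem_range_self f x
    have := he ⟨f x, hx⟩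
    simp only [e', LinearMap.comp_apply, LinearEquiv.coe_coe]
    rw [this]
    rfl
  let τ : F' →ₗ[A] F := s ∘ₗ e'
  have hτ : ∀ x : F, f (τ (f x)) = f x := by
    intro x
    simp only [τ, LinearMap.comp_apply]
    rw [hs', he']
  have hmem : ∀ x : F, ((LinearMap.id : F →ₗ[A] F) - τ ∘ₗ f) x ∈ LinearMap.ker f := by
    intro x
    rw [LinearMap.mem_ker, LinearMap.sub_apply, map_sub, LinearMap.id_apply,
      LinearMap.comp_apply, hτ, sub_self]
  refine ⟨(LinearMap.id - τ ∘ₗ f).codRestrict (LinearMap.ker f) hmem, τ, fun k => ?_,
    fun x => ?_⟩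
  · apply Subtype.ext
    rw [LinearMap.codRestrict_apply, LinearMap.sub_apply, LinearMap.id_apply,
      LinearMap.comp_apply, LinearMap.mem_ker.mp k.2, map_zero, sub_zero]
  · rw [LinearMap.codRestrict_apply, LinearMap.sub_apply, LinearMap.id_apply,
      LinearMap.comp_apply, sub_add_cancel]

/-- **E2, base change.** Under the hypothesis of E2 the kernel commutes with *every* base change
(any commutative `A`-algebra `B`, in any universe): `B ⊗ ker f → B ⊗ F` is injective with image
`ker (B ⊗ f)`. -/
theorem baseChange_ker (f : F →ₗ[A] F') (h : KerCommutesMod f)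
    (B : Type*) [CommRing B] [Algebra A B] :
    Function.Injective ((LinearMap.ker f).subtype.baseChange B) ∧
      LinearMap.range ((LinearMap.ker f).subtype.baseChange B) =
        LinearMap.ker (f.baseChange B) := by
  obtain ⟨π, τ, hπ, hπτ⟩ := exists_homotopy f h
  have h1 : π ∘ₗ (LinearMap.ker f).subtype = LinearMap.id := LinearMap.ext fun k => by simp [hπ]
  have h2 : (LinearMap.ker f).subtype ∘ₗ π + τ ∘ₗ f = LinearMap.id :=
    LinearMap.ext fun x => by simpa using hπτ x
  have h3 : f ∘ₗ (LinearMap.ker f).subtype = 0 := LinearMap.ext fun k => by simp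
  refine ⟨?_, le_antisymm ?_ ?_⟩
  · apply Function.LeftInverse.injective (g := π.baseChange B)
    intro z
    rw [← LinearMap.comp_apply, ← LinearMap.baseChange_comp, h1, LinearMap.baseChange_id,
      LinearMap.id_apply]
  · rintro _ ⟨z, rfl⟩
    rw [LinearMap.mem_ker, ← LinearMap.comp_apply, ← LinearMap.baseChange_comp, h3,
      LinearMap.baseChange_zero, LinearMap.zero_apply]
  · intro z hz
    rw [LinearMap.mem_ker] at hz
    refine ⟨π.baseChange B z, ?_⟩
    have h4 := congrArg (fun φ : F →ₗ[A] F => φ.baseChange B z) h2
    simp only [LinearMap.baseChange_add, LinearMap.baseChange_comp, LinearMap.add_apply,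
      LinearMap.comp_apply, LinearMap.baseChange_id, LinearMap.id_apply, hz, map_zero,
      add_zero] at h4
    exact h4

end Homotopy

/-- **Leaf E2** (block CECH of row S25), in the form requested by the board:
`f : F → F'` between finitely generated free `A`-modules whose kernel commutes with every base
change `A → B`.  Then `ker f` is finitely generated projective and a direct summand, and
`coker f` is finitely presented and flat (hence projective). -/
theorem E2 [Module.Finite A F] [Module.Free A F] [Module.Finite A F'] [Module.Free A F']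
    (f : F →ₗ[A] F') (h : KerCommutesBaseChange f) :
    Module.Finite A (LinearMap.ker f) ∧ Module.Projective A (LinearMap.ker f) ∧
      (∃ K' : Submodule A F, IsCompl (LinearMap.ker f) K') ∧
      Module.FinitePresentation A (F' ⧸ LinearMap.range f) ∧
      Module.Flat A (F' ⧸ LinearMap.range f) ∧
      Module.Projective A (F' ⧸ LinearMap.range f) ∧
      (∃ R' : Submodule A F', IsCompl (LinearMap.range f) R') := by
  have : Module.FinitePresentation A F' := Module.finitePresentation_of_projective A F'
  have h' := h.kerCommutesMod
  exact ⟨finite_ker_of_kerCommutesMod f h', projective_ker_of_kerCommutesMod f h',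
    exists_isCompl_ker_of_kerCommutesMod f h', finitePresentation_coker f,
    flat_coker_of_kerCommutesMod f h', projective_coker f h', exists_isCompl_range f h'⟩

end Fermat.Agent.S25.H370
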